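import Fermat.Agent.S48.M.G1
import Fermat.Agent.S16.LData

/-!
# S48 / M / PER-HD : Hecke data for the representatives `matTG M p`
[key S48/M-PER-HD, ~300 lines, integer 2x2 matrices only; from `S16.Lower.nonempty_HData_T` (level `Γ₀(M)`, representatives `matT p`: `none ↦ matD p = [[p,0],[0,1]]`, `some j ↦ matU p j = [[1,j],[0,p]]`)]
(needed by PER and by the sub-layer HX)

Let `γ ∈ Γ₀(M)`, `D : HData M (matT p) γ`: `matT i * γ = δ₀ i * matT (σ i)`, `δ₀ i ∈ Γ₀(M)`.  Compare the lower right entries mod `M` (all lower left entries of elements of `Γ₀(M)` vanish mod `M`; `d = γ 1 1`):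
 * `i = some j`, `σ i = some j'`: `p * d = (δ₀ i) 1 0 * j' + (δ₀ i) 1 1 * p`, so `(δ₀ i) 1 1 ≡ d`   (`p` is a unit mod `M`);
 * `i = some j`, `σ i = none`:   `(δ₀ i) 1 1 = p d`;
 * `i = none`, `σ i = some j'`:  `d = (δ₀ i) 1 0 * j' + (δ₀ i) 1 1 * p`, so `(δ₀ i) 1 1 ≡ d p⁻¹`;
 * `i = none`, `σ i = none`:     `(δ₀ i) 1 1 = d`.
With `g̃ = gamD M (unitOf M p)⁻¹` (lower right entry `≡ p⁻¹`), `matTG none = matD p`, `matTG (some j) = g̃ * matU p j`, take the same `σ` and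
 `δ i = g̃ δ₀ g̃⁻¹`, `g̃ δ₀`, `δ₀ g̃⁻¹`, `δ₀` in the four cases.  The lower right entry of a product of elements of `Γ₀(M)` is the product of the lower right entries mod `M`
 (`Gamma0Map` is a monoid hom: `CongruenceSubgroup.Gamma0Map`), so `(δ i) 1 1 ≡ d` in all cases.
`nonempty_HDataL`: `γ ∈ GG M 1` ⇒ `δ i ∈ GG M 1` (`mem_GG`, `M * 1 = M`).
-/

set_option autoImplicit false

open CongruenceSubgroup Fermat.Agent.S16.Lower
open scoped MatrixGroups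

noncomputable section

namespace Fermat.Agent.S48.M.Per

/-- the left factor of `matTG M p i` -/
def hdPre (M p : ℕ) [NeZero M] : Option (Fin p) → Gamma0 M
  | none => 1
  | some _ => ⟨gamD M (unitOf M p)⁻¹, gamD_mem M _⟩

/-- the lower right entry of `matT p i` -/
def hdW (M p : ℕ) : Option (Fin p) → ZMod M
  | none => 1
  | some _ => (p : ZMod M)

theorem hd_matTG (M p : ℕ) [NeZero M] (i : Option (Fin p)) :
    matTG M p i = ((hdPre M p i : SL(2, ℤ)) : Matrix (Fin 2) (Fin 2) ℤ) * matT p i := by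
  cases i with
  | none =>
    change matD p = ((1 : SL(2, ℤ)) : Matrix (Fin 2) (Fin 2) ℤ) * matD p
    rw [Matrix.SpecialLinearGroup.coe_one, Matrix.one_mul]
  | some j => rfl

theorem hd_unitOf (M p : ℕ) [NeZero M] (h : Nat.Coprime p M) :
    ((unitOf M p : (ZMod M)ˣ) : ZMod M) = (p : ZMod M) := by
  rw [unitOf, dif_pos h, ZMod.coe_unitOfCoprime]

theorem hd_pre_mul_w (M p : ℕ) [NeZero M] (h : Nat.Coprime p M) (i : Option (Fin p)) :
    Gamma0Map M (hdPre M p i) * hdW M p i = 1 := by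
  cases i with
  | none =>
    change Gamma0Map M 1 * 1 = 1
    rw [map_one, mul_one]
  | some j =>
    change ((gamD M (unitOf M p)⁻¹ 1 1 : ℤ) : ZMod M) * (p : ZMod M) = 1
    rw [gamD_apply, ← hd_unitOf M p h, Units.inv_mul]

theorem hd_pre_inv (M p : ℕ) [NeZero M] (h : Nat.Coprime p M) (i : Option (Fin p)) :
    Gamma0Map M (hdPre M p i)⁻¹ = hdW M p i := by
  have h1 : Gamma0Map M (hdPre M p i)⁻¹ * Gamma0Map M (hdPre M p i) = 1 := by
    rw [← map_mul, inv_mul_cancel, map_one]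
  calc Gamma0Map M (hdPre M p i)⁻¹
      = Gamma0Map M (hdPre M p i)⁻¹ * (Gamma0Map M (hdPre M p i) * hdW M p i) := by
        rw [hd_pre_mul_w M p h, mul_one]
    _ = hdW M p i := by rw [← mul_assoc, h1, one_mul]

theorem hd_matT_low (M p : ℕ) (i : Option (Fin p)) :
    matT p i 1 0 = 0 ∧ ((matT p i 1 1 : ℤ) : ZMod M) = hdW M p i := by
  cases i with
  | none => exact ⟨rfl, by simp [matT, matD, hdW]⟩
  | some j => exact ⟨rfl, by simp [matT, matU, hdW]⟩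

theorem hd_rel (M p : ℕ) (γ δ : Gamma0 M) (i j : Option (Fin p))
    (h : matT p i * ((γ : SL(2, ℤ)) : Matrix (Fin 2) (Fin 2) ℤ) =
      ((δ : SL(2, ℤ)) : Matrix (Fin 2) (Fin 2) ℤ) * matT p j) :
    Gamma0Map M δ * hdW M p j = hdW M p i * Gamma0Map M γ := by
  have h1 := congrFun (congrFun h 1) 1
  rw [Matrix.mul_apply, Matrix.mul_apply, Fin.sum_univ_two, Fin.sum_univ_two,
    (hd_matT_low M p i).1, zero_mul, zero_add] at h1
  have h2 := congrArg (Int.cast : ℤ → ZMod M) h1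
  push_cast at h2
  rw [(hd_matT_low M p i).2, (hd_matT_low M p j).2] at h2
  have h3 : (((δ : SL(2, ℤ)) 1 0 : ℤ) : ZMod M) = 0 := Gamma0_mem.mp δ.2
  change _ = (((δ : SL(2, ℤ)) 1 0 : ℤ) : ZMod M) * _ + _ at h2
  rw [h3, zero_mul, zero_add] at h2
  exact h2.symm

theorem exists_hdataG (M p : ℕ) [NeZero M] (hp : p.Prime) (hpM : ¬ p ∣ M) (γ : SL(2, ℤ)) (hγ : γ ∈ Gamma0 M) :
    ∃ (σ : Equiv.Perm (Option (Fin p))) (δ : Option (Fin p) → SL(2, ℤ)),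
      (∀ i, δ i ∈ Gamma0 M ∧ ((δ i 1 1 : ℤ) : ZMod M) = ((γ 1 1 : ℤ) : ZMod M)) ∧
      ∀ i, matTG M p i * (γ : Matrix (Fin 2) (Fin 2) ℤ) = (δ i : Matrix (Fin 2) (Fin 2) ℤ) * matTG M p (σ i) := by
  have hcop : Nat.Coprime p M := (Nat.Prime.coprime_iff_not_dvd hp).2 hpM
  obtain ⟨D⟩ := nonempty_HData_T hp hpM (⟨γ, hγ⟩ : Gamma0 M)
  let δ : Option (Fin p) → Gamma0 M := fun i => hdPre M p i * D.δ i * (hdPre M p (D.σ i))⁻¹
  refine ⟨D.σ, fun i => (δ i : SL(2, ℤ)), fun i => ⟨(δ i).2, ?_⟩, fun i => ?_⟩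
  · change Gamma0Map M (δ i) = Gamma0Map M (⟨γ, hγ⟩ : Gamma0 M)
    change Gamma0Map M (hdPre M p i * D.δ i * (hdPre M p (D.σ i))⁻¹) = _
    rw [map_mul, map_mul, hd_pre_inv M p hcop, mul_assoc, hd_rel M p _ _ _ _ (D.rel i),
      ← mul_assoc, hd_pre_mul_w M p hcop, one_mul]
  · have h1 := D.rel i
    change matT p i * (γ : Matrix (Fin 2) (Fin 2) ℤ) = _ at h1
    have h2 : ((((hdPre M p (D.σ i))⁻¹ : Gamma0 M) : SL(2, ℤ)) : Matrix (Fin 2) (Fin 2) ℤ) *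
        (((hdPre M p (D.σ i) : SL(2, ℤ)) : Matrix (Fin 2) (Fin 2) ℤ) * matT p (D.σ i)) =
        matT p (D.σ i) := by
      rw [← Matrix.mul_assoc, ← Matrix.SpecialLinearGroup.coe_mul, ← Subgroup.coe_mul,
        inv_mul_cancel, Subgroup.coe_one, Matrix.SpecialLinearGroup.coe_one, Matrix.one_mul]
    rw [hd_matTG, hd_matTG, Matrix.mul_assoc, h1]
    change _ = (((hdPre M p i * D.δ i * (hdPre M p (D.σ i))⁻¹ : Gamma0 M) : SL(2, ℤ)) :
      Matrix (Fin 2) (Fin 2) ℤ) * _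
    rw [Subgroup.coe_mul, Subgroup.coe_mul, Matrix.SpecialLinearGroup.coe_mul,
      Matrix.SpecialLinearGroup.coe_mul, Matrix.mul_assoc _ _ (_ * matT p (D.σ i)), h2,
      Matrix.mul_assoc]

theorem nonempty_HDataL (M p : ℕ) [NeZero M] (hp : p.Prime) (hpM : ¬ p ∣ M) (γ : (lvG M 1).Γ) :
    Nonempty (HDataL (lvG M 1) (matTG M p) γ) := by
  have hγ : (γ : SL(2, ℤ)) ∈ GG M 1 := γ.2
  rw [mem_GG, mul_one] at hγ
  obtain ⟨σ, δ, h1, h2⟩ := exists_hdataG M p hp hpM γ hγ.1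
  refine ⟨⟨σ, fun i => ⟨δ i, ?_⟩, h2⟩⟩
  change δ i ∈ GG M 1
  rw [mem_GG, mul_one, (h1 i).2]
  exact ⟨(h1 i).1, hγ.2⟩

end Fermat.Agent.S48.M.Per
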