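import Fermat.Agent.S48.M.Per.Neb
import Fermat.Agent.S48.M.Per.HData
import Fermat.Agent.S16.LPeriod
import Fermat.Prelude.Thm_CuspFormClass_isZeroAt_heckeT
import Fermat.Prelude.Thm_CuspFormClass_isZeroAt_heckeU
import Fermat.Prelude.Thm_UpperHalfPlane_qCoeff_heckeT
import Fermat.Prelude.Thm_UpperHalfPlane_qCoeff_heckeU
import Fermat.Prelude.Thm_ModularForm_mdifferentiable_heckeT
import Fermat.Prelude.Thm_ModularForm_mdifferentiable_heckeU
import Fermat.Prelude.Thm_ModularForm_periodic_heckeT_comp_ofComplex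
import Fermat.Prelude.Thm_ModularForm_periodic_heckeU_comp_ofComplex
import Fermat.Prelude.Thm_ModularForm_isBoundedAtImInfty_heckeT
import Fermat.Prelude.Thm_ModularForm_isBoundedAtImInfty_heckeU

/-!
# S48 / M / PER-HK : the operator `T' = ⟨p⟩⁻¹ T_p` on function level forms of weight two with nebentypus
`heckeN c p f = c • heckeU 2 p f + f ∣[2] heckeDiagMatrix p`  (`heckeU`, `heckeT = heckeU + f ∣ diag` : Prelude `Def_ModularForm_HeckeOperator`), used with `c = χ (p̄)`, `p̄ = (gamD M (unitOf M p)⁻¹) 1 1`.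

[key S48/M-PER-HK-a] (~150) `isQ_heckeN`, `coeffFun_heckeN`, `heckeN_add`, `heckeN_smul`, `heckeN_neg`:  `f ∣ diag = heckeT 2 p f - heckeU 2 p f`; Prelude `mdifferentiable_heckeU/T`, `periodic_heckeU/T_comp_ofComplex`,
   `isBoundedAtImInfty_heckeU/T`, `UpperHalfPlane.qCoeff_heckeU/T` (`qCoeff = coeffFun` by `rfl`), `S29.coeffFun_add`, `coeffFun_smul`.  (`coeffHeckeT 2 p a n = a (n p) + [p ∣ n] p^(2-1) a (n/p)`.)
[key S48/M-PER-HK-b] (~200) `glTG_val`, `glTG_det_pos`, `heckeN_eq_sum`:  `∑ over Option (Fin p)` = `none` term + `∑ j : Fin p` (`Fintype.sum_option`, `Fin.sum_univ_eq_sum_range`); `f ∣ (g̃ * heckeMatrix p j) = (f ∣ g̃) ∣ heckeMatrix = (c • f) ∣ heckeMatrix = c • (f ∣ heckeMatrix)`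
   (`SlashAction.slash_mul`, `ModularForm.smul_slash`, `σ_heckeMatrix`; `f ∣[2] (g̃ : GL) = f ∣[2] (g̃ : SL)` is `ModularForm.SL_slash`).
[key S48/M-PER-HK-c] (~350) `IsNebC.heckeN`: `isQ` from (a).  `slash`: `γ ∈ Γ₀(M)`; `exists_hdataG`; `(∑ f ∣ A_i) ∣ γ = ∑ f ∣ (A_i γ) = ∑ f ∣ (δ_i A_{σ i}) = ∑ (f ∣ δ_i) ∣ A_{σ i}`, `f ∣ δ_i = f ∣ γ = χ (γ 1 1) • f` (`IsNebC.slash_eq`), reindex by `σ`
   (`S16.Lower.PeriodAux.lift_rel` turns the integer relation into a relation in `GL (Fin 2) ℝ`).   `zero`: `F = hf.isCF_GG.toCuspForm : CuspForm (GG M 1) 2`; Prelude `CuspFormClass.isZeroAt_heckeU F p`, `isZeroAt_heckeT F p` at every cusp of the arithmetic group;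
   every `g • ∞`, `g ∈ SL(2,ℤ)`, is a cusp; `OnePoint.IsZeroAt (g • ∞) h k ↔ IsZeroAtImInfty (h ∣[k] g)` (see how `S20.isCF_of_cuspForm` / `CuspFormClass.zero_at_infty_slash` do it); `IsZeroAtImInfty` is stable under `+`, `-`, `c •`.
[key S48/M-PER-HK-d] (~200) `heckeN_comm`: both sides are `IsQ`; `S29.coeffFun_injective`; coefficients: `c c' a(pqn) + c q [q ∣ n] a(pn/q) + c' p [p ∣ n] a(qn/p) + p q [pq ∣ n] a(n/(pq))` for `p ≠ q` primes (symmetric); `p = q`: need `c = c'`, trivial.  Pure arithmetic of divisibility.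
-/

set_option autoImplicit false

open UpperHalfPlane ModularForm ModularFormClass CongruenceSubgroup Fermat.Agent.S24 Fermat.Agent.S29
open Fermat.Agent.S16.Lower
open scoped MatrixGroups Manifold

noncomputable section

namespace Fermat.Agent.S48.M.Per

/-- `T' = ⟨p⟩⁻¹ T_p` (with `c = χ(p)⁻¹`) -/
def heckeN (c : ℂ) (p : ℕ) (f : ℍ → ℂ) : ℍ → ℂ :=
  c • ModularForm.heckeU 2 p f + f ∣[(2 : ℤ)] ModularForm.heckeDiagMatrix p

theorem heckeN_add (c : ℂ) (p : ℕ) (f g : ℍ → ℂ) : heckeN c p (f + g) = heckeN c p f + heckeN c p g := by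
  rw [heckeN, heckeN, heckeN, heckeU_add, SlashAction.add_slash, smul_add]
  abel

theorem heckeN_smul (c : ℂ) (p : ℕ) (a : ℂ) (f : ℍ → ℂ) : heckeN c p (a • f) = a • heckeN c p f := by
  rw [heckeN, heckeN, heckeU_smul, ModularForm.smul_slash, σ_heckeDiagMatrix,
    ContinuousAlgEquiv.refl_apply, smul_add, smul_comm]

theorem hkAux_eq (c : ℂ) (p : ℕ) (f : ℍ → ℂ) :
    heckeN c p f = (c - 1) • ModularForm.heckeU 2 p f + ModularForm.heckeT 2 p f := by
  rw [heckeN, heckeT, sub_smul, one_smul]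
  abel

theorem hkAux_isQ_U {f : ℍ → ℂ} (hf : IsQ f) (p : ℕ) : IsQ (ModularForm.heckeU 2 p f) :=
  ⟨mdifferentiable_heckeU hf.holo 2 p, periodic_heckeU_comp_ofComplex hf.per 2 p,
    isBoundedAtImInfty_heckeU hf.bdd 2 p⟩

theorem hkAux_isQ_T {f : ℍ → ℂ} (hf : IsQ f) (p : ℕ) : IsQ (ModularForm.heckeT 2 p f) :=
  ⟨mdifferentiable_heckeT hf.holo 2 p, periodic_heckeT_comp_ofComplex hf.per 2 p,
    isBoundedAtImInfty_heckeT hf.bdd 2 p⟩

theorem isQ_heckeN {f : ℍ → ℂ} (hf : IsQ f) (c : ℂ) (p : ℕ) : IsQ (heckeN c p f) := by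
  rw [hkAux_eq]
  exact ((hkAux_isQ_U hf p).smul (c - 1)).add (hkAux_isQ_T hf p)

theorem coeffFun_heckeN {f : ℍ → ℂ} (hf : IsQ f) (c : ℂ) {p : ℕ} (hp : p ≠ 0) (n : ℕ) :
    coeffFun (heckeN c p f) n =
      c * coeffFun f (p * n) + (p : ℂ) * (if p ∣ n then coeffFun f (n / p) else 0) := by
  rw [hkAux_eq, coeffFun_add ((hkAux_isQ_U hf p).smul (c - 1)) (hkAux_isQ_T hf p),
    coeffFun_smul _ (hkAux_isQ_U hf p), Pi.add_apply, Pi.smul_apply, smul_eq_mul]
  have h1 : coeffFun (ModularForm.heckeU 2 p f) n = coeffFun f (n * p) :=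
    UpperHalfPlane.qCoeff_heckeU hf.per hf.holo hf.bdd 2 hp n
  have h2 : coeffFun (ModularForm.heckeT 2 p f) n =
      coeffFun f (n * p) + if p ∣ n then (p : ℂ) ^ ((2 : ℤ) - 1) * coeffFun f (n / p) else 0 :=
    UpperHalfPlane.qCoeff_heckeT hf.per hf.holo hf.bdd 2 hp n
  rw [h1, h2, mul_comm n p]
  by_cases h : p ∣ n
  · rw [if_pos h, if_pos h]
    norm_num
    ring
  · rw [if_neg h, if_neg h]
    ring

theorem heckeN_comm {f : ℍ → ℂ} (hf : IsQ f) (c c' : ℂ) {p q : ℕ} (hp : p.Prime) (hq : q.Prime)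
    (hpq : p = q → c = c') : heckeN c p (heckeN c' q f) = heckeN c' q (heckeN c p f) := by
  by_cases hne : p = q
  · have := hpq hne
    subst hne
    subst this
    rfl
  have hcop : Nat.Coprime p q := (Nat.coprime_primes hp hq).2 hne
  refine coeffFun_injective (isQ_heckeN (isQ_heckeN hf c' q) c p)
    (isQ_heckeN (isQ_heckeN hf c p) c' q) ?_
  funext n
  rw [coeffFun_heckeN (isQ_heckeN hf c' q) c hp.ne_zero, coeffFun_heckeN (isQ_heckeN hf c p) c' hq.ne_zero]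
  simp only [coeffFun_heckeN hf c' hq.ne_zero, coeffFun_heckeN hf c hp.ne_zero]
  have hqp : q ∣ p * n ↔ q ∣ n := hcop.symm.dvd_mul_left
  have hpq' : p ∣ q * n ↔ p ∣ n := hcop.dvd_mul_left
  have e0 : q * (p * n) = p * (q * n) := by ring
  rw [if_congr hqp rfl rfl, if_congr hpq' rfl rfl, e0]
  by_cases h1 : p ∣ n <;> by_cases h2 : q ∣ n
  · have h3 : q ∣ n / p := by
      obtain ⟨m, rfl⟩ := h1
      rw [Nat.mul_div_cancel_left _ hp.pos]
      exact hcop.symm.dvd_mul_left.1 h2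
    have h4 : p ∣ n / q := by
      obtain ⟨m, rfl⟩ := h2
      rw [Nat.mul_div_cancel_left _ hq.pos]
      exact hcop.dvd_mul_left.1 h1
    simp only [if_pos h1, if_pos h2, if_pos h3, if_pos h4]
    rw [Nat.mul_div_assoc p h2, Nat.mul_div_assoc q h1,
      Nat.div_div_eq_div_mul, Nat.div_div_eq_div_mul, mul_comm q p]
    ring
  · have h3 : ¬ q ∣ n / p := by
      obtain ⟨m, rfl⟩ := h1
      rw [Nat.mul_div_cancel_left _ hp.pos]
      exact fun h => h2 (h.mul_left p)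
    simp only [if_pos h1, if_neg h2, if_neg h3]
    rw [Nat.mul_div_assoc q h1]
    ring
  · have h4 : ¬ p ∣ n / q := by
      obtain ⟨m, rfl⟩ := h2
      rw [Nat.mul_div_cancel_left _ hq.pos]
      exact fun h => h1 (h.mul_left q)
    simp only [if_neg h1, if_pos h2, if_neg h4]
    rw [Nat.mul_div_assoc p h2]
    ring
  · simp only [if_neg h1, if_neg h2]
    ring

variable (M : ℕ) [NeZero M]

/-- the integer `p̄ ≡ p⁻¹ mod M` -/
def pbar (p : ℕ) : ℤ := (gamD M (unitOf M p)⁻¹) 1 1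

/-- real versions of the representatives `matTG M p` -/
def glTG (p : ℕ) : Option (Fin p) → GL (Fin 2) ℝ
  | none => ModularForm.heckeDiagMatrix p
  | some j => ((gamD M (unitOf M p)⁻¹ : SL(2, ℤ)) : GL (Fin 2) ℝ) * ModularForm.heckeMatrix p j

theorem glTG_val {p : ℕ} (hp : p ≠ 0) (i : Option (Fin p)) :
    (glTG M p i).val = (matTG M p i).map (Int.cast : ℤ → ℝ) := by
  cases i with
  | none => exact PeriodAux.glT_val hp none
  | some j =>
    change (((gamD M (unitOf M p)⁻¹ : SL(2, ℤ)) : GL (Fin 2) ℝ) * ModularForm.heckeMatrix p j).val =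
      (((gamD M (unitOf M p)⁻¹ : SL(2, ℤ)) : Matrix (Fin 2) (Fin 2) ℤ) * matU p j).map
        (Int.castRingHom ℝ)
    have h1 : ((gamD M (unitOf M p)⁻¹ : SL(2, ℤ)) : GL (Fin 2) ℝ).val =
        ((gamD M (unitOf M p)⁻¹ : SL(2, ℤ)) : Matrix (Fin 2) (Fin 2) ℤ).map (Int.castRingHom ℝ) := by
      ext i j; simp
    have h2 : (ModularForm.heckeMatrix p j).val = (matU p j).map (Int.castRingHom ℝ) :=
      PeriodAux.glT_val hp (some j)
    rw [Units.val_mul, h1, h2, Matrix.map_mul]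

theorem glTG_det_pos (p : ℕ) (i : Option (Fin p)) : 0 < (glTG M p i).val.det := by
  cases i with
  | none => exact PeriodAux.glT_det_pos p none
  | some j =>
    change 0 < (((gamD M (unitOf M p)⁻¹ : SL(2, ℤ)) : GL (Fin 2) ℝ) *
      ModularForm.heckeMatrix p j).val.det
    have h1 : ((gamD M (unitOf M p)⁻¹ : SL(2, ℤ)) : GL (Fin 2) ℝ).val.det = 1 :=
      (Matrix.SpecialLinearGroup.map (Int.castRingHom ℝ) (gamD M (unitOf M p)⁻¹)).2
    rw [Units.val_mul, Matrix.det_mul, h1, one_mul]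
    exact PeriodAux.glT_det_pos p (some j)

theorem hkb_σ (p : ℕ) (i : Option (Fin p)) : UpperHalfPlane.σ (glTG M p i) = .refl ℝ ℂ := by
  rw [UpperHalfPlane.σ, if_pos]
  rw [Matrix.GeneralLinearGroup.val_det_apply]
  exact glTG_det_pos M p i

variable {M} {χ : ℤ → ℂ} {f : ℍ → ℂ}

theorem heckeN_eq_sum (hf : IsNebC M 2 χ f) (p : ℕ) (z : ℍ) :
    heckeN (χ (pbar M p)) p f z = ∑ i, (f ∣[(2 : ℤ)] glTG M p i) z := by
  have h1 : ∀ j : Fin p, f ∣[(2 : ℤ)] glTG M p (some j) =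
      χ (pbar M p) • (f ∣[(2 : ℤ)] ModularForm.heckeMatrix p j) := by
    intro j
    change f ∣[(2 : ℤ)] (((gamD M (unitOf M p)⁻¹ : SL(2, ℤ)) : GL (Fin 2) ℝ) *
      ModularForm.heckeMatrix p j) = _
    rw [SlashAction.slash_mul, ← ModularForm.SL_slash, hf.slash _ (gamD_mem M _),
      ModularForm.smul_slash, ModularForm.σ_heckeMatrix, ContinuousAlgEquiv.refl_apply]
    rfl
  rw [Fintype.sum_option, heckeN, Pi.add_apply, Pi.smul_apply, ModularForm.heckeU_def,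
    Finset.sum_apply, Finset.sum_range, add_comm, Finset.smul_sum]
  congr 1
  refine Finset.sum_congr rfl fun j _ => ?_
  rw [h1 j]
  rfl

theorem hkc_eq_sum (hf : IsNebC M 2 χ f) (p : ℕ) :
    heckeN (χ (pbar M p)) p f = ∑ i, f ∣[(2 : ℤ)] glTG M p i := by
  funext z
  rw [heckeN_eq_sum hf, Finset.sum_apply]

theorem hkc_sum_slash {ι : Type*} (s : Finset ι) (F : ι → ℍ → ℂ) (g : GL (Fin 2) ℝ) :
    (∑ i ∈ s, F i) ∣[(2 : ℤ)] g = ∑ i ∈ s, (F i) ∣[(2 : ℤ)] g := by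
  classical
  induction s using Finset.induction_on with
  | empty => simp
  | insert i t hi IH => rw [Finset.sum_insert hi, Finset.sum_insert hi, SlashAction.add_slash, IH]

theorem hkc_zero (hf : IsNebC M 2 χ f) (c : ℂ) (p : ℕ) (g : SL(2, ℤ)) :
    IsZeroAtImInfty (Per.heckeN c p f ∣[(2 : ℤ)] g) := by
  let F : CuspForm ((GG M 1 : Subgroup SL(2, ℤ)) : Subgroup (GL (Fin 2) ℝ)) 2 :=
    (IsNebC.isCF_GG hf).toCuspForm
  have hcusp : IsCusp ((g : GL (Fin 2) ℝ) • (OnePoint.infty : OnePoint ℝ))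
      ((GG M 1 : Subgroup SL(2, ℤ)) : Subgroup (GL (Fin 2) ℝ)) := by
    rw [Subgroup.IsArithmetic.isCusp_iff_isCusp_SL2Z, isCusp_SL2Z_iff']
    exact ⟨g, by simp [Matrix.SpecialLinearGroup.mapGL]⟩
  have hU : IsZeroAtImInfty (ModularForm.heckeU 2 p f ∣[(2 : ℤ)] g) := by
    rw [← OnePoint.isZeroAt_infty_iff, SL_slash, ← OnePoint.IsZeroAt.smul_iff]
    exact CuspFormClass.isZeroAt_heckeU F p hcusp
  have hT : IsZeroAtImInfty (ModularForm.heckeT 2 p f ∣[(2 : ℤ)] g) := by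
    rw [← OnePoint.isZeroAt_infty_iff, SL_slash, ← OnePoint.IsZeroAt.smul_iff]
    exact CuspFormClass.isZeroAt_heckeT F p hcusp
  have h1 : Per.heckeN c p f = c • ModularForm.heckeU 2 p f + (ModularForm.heckeT 2 p f +
      (-1 : ℂ) • ModularForm.heckeU 2 p f) := by
    rw [Per.heckeN, ModularForm.heckeT_eq_heckeU_add]
    congr 1
    funext z
    simp
  rw [h1, SlashAction.add_slash, SlashAction.add_slash, SL_smul_slash, SL_smul_slash]
  exact (hU.smul c).add (hT.add (hU.smul (-1)))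

theorem IsNebC.heckeN (hf : IsNebC M 2 χ f) {p : ℕ} (hp : p.Prime) (hpM : ¬ p ∣ M) :
    IsNebC M 2 χ (heckeN (χ (pbar M p)) p f) := by
  refine ⟨isQ_heckeN hf.isQ _ p, fun γ hγ => ?_, fun g => hkc_zero hf _ p g⟩
  obtain ⟨σ, δ, h1, h2⟩ := exists_hdataG M p hp hpM γ hγ
  have h3 : ∀ i, (f ∣[(2 : ℤ)] glTG M p i) ∣[(2 : ℤ)] (γ : GL (Fin 2) ℝ) =
      χ (γ 1 1) • (f ∣[(2 : ℤ)] glTG M p (σ i)) := by
    intro i
    rw [← SlashAction.slash_mul, PeriodAux.lift_rel _ _ _ _ (glTG_val M hp.ne_zero i)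
      (glTG_val M hp.ne_zero (σ i)) γ (δ i) (h2 i), SlashAction.slash_mul, ← ModularForm.SL_slash,
      IsNebC.slash_eq hf (δ i) γ (h1 i).1 hγ (h1 i).2, hf.slash γ hγ, ModularForm.smul_slash, hkb_σ,
      ContinuousAlgEquiv.refl_apply]
  rw [hkc_eq_sum hf, SL_slash, hkc_sum_slash, Finset.smul_sum]
  simp_rw [h3]
  exact Equiv.sum_comp σ (fun i => χ (γ 1 1) • (f ∣[(2 : ℤ)] glTG M p i))

end Fermat.Agent.S48.M.Per
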