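import Fermat.Agent.S48.M.Per.Prim
import Fermat.Agent.S16.LPeriod

/-!
# S48 / M / PER-TRANS : the period homomorphism and transfers
[key S48/M-PER-TRANS, ~150 lines; PORT of `S16.Lower.PeriodAux.periodMap_eq_sum` (generic tools `isPrim_comp_smul`, `isPrim_sum`, `lift_rel` are there) with `per_apply` instead of `periodMap_apply`]

`F` a primitive of `f`; `z ↦ ∑ i, F (A i • z)` is a primitive of `h = ∑ i, f ∣[2] A i`; telescoping along `A i γ = δ i A (σ i)`.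
`per_conj`: `g ∈ SL(2,ℤ)`, `f ∣ g` again a cusp form on `Γ`, `γ' = g γ g⁻¹ ∈ Γ`: `per (f ∣ g) γ = per f γ'`  [`F ∘ g` is a primitive of `f ∣ g` (`IsPrim.comp_smul`);
`F (g γ z) - F (g z) = F (γ' (g z)) - F (g z)`].
-/

set_option autoImplicit false

open UpperHalfPlane ModularCurve ModularCurve.Period Filter Topology Fermat.Agent.S21
open scoped MatrixGroups ModularForm Manifold

noncomputable section

namespace Fermat.Agent.S48.M.Per

variable {Γ : Subgroup SL(2, ℤ)} [Γ.FiniteIndex]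

theorem per_eq_sum {ι : Type} [Fintype ι] (A : ι → GL (Fin 2) ℝ) (hA : ∀ i, 0 < (A i).val.det)
    {f h : ℍ → ℂ} (hf : S20.IsCF Γ 2 f) (hh : S20.IsCF Γ 2 h)
    (hsum : ∀ z, h z = ∑ i, (f ∣[(2 : ℤ)] A i) z) (γ : Γ) (σ : Equiv.Perm ι) (δ : ι → Γ)
    (rel : ∀ i, A i * (((γ : SL(2, ℤ)) : GL (Fin 2) ℝ)) = (((δ i : SL(2, ℤ)) : GL (Fin 2) ℝ)) * A (σ i)) :
    per Γ h (Additive.ofMul γ) = ∑ i, per Γ f (Additive.ofMul (δ i)) := by
  obtain ⟨F, hF, -⟩ := exists_prim Γ hf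
  have hG : IsPrim (fun z => ∑ i, F (A i • z)) h := by
    have h1 := S16.Lower.PeriodAux.isPrim_sum Finset.univ (fun i z => F (A i • z))
      (fun i => f ∣[(2 : ℤ)] A i)
      (fun i _ => S16.Lower.PeriodAux.isPrim_comp_smul hF (A i) (hA i))
    exact h1.congr_right (fun z => (hsum z).symm)
  rw [per_apply hh hG γ I]
  have h3 : ∀ i, A i • ((γ : SL(2, ℤ)) • I) = (δ i : SL(2, ℤ)) • (A (σ i) • I) := by
    intro i
    change A i • (((γ : SL(2, ℤ)) : GL (Fin 2) ℝ) • I) =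
      ((δ i : SL(2, ℤ)) : GL (Fin 2) ℝ) • (A (σ i) • I)
    rw [← mul_smul, ← mul_smul, rel]
  have h4 : ∑ i, F (A i • I) = ∑ i, F (A (σ i) • I) :=
    (Equiv.sum_comp σ (fun i => F (A i • I))).symm
  rw [h4, ← Finset.sum_sub_distrib]
  apply Finset.sum_congr rfl
  intro i _
  rw [h3, per_apply hf hF (δ i) (A (σ i) • I)]

theorem per_conj {f : ℍ → ℂ} (hf : S20.IsCF Γ 2 f) (g : SL(2, ℤ)) (hfg : S20.IsCF Γ 2 (f ∣[(2 : ℤ)] g))
    (γ γ' : Γ) (h : (γ' : SL(2, ℤ)) = g * γ * g⁻¹) :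
    per Γ (f ∣[(2 : ℤ)] g) (Additive.ofMul γ) = per Γ f (Additive.ofMul γ') := by
  obtain ⟨F, hF, -⟩ := exists_prim Γ hf
  rw [per_apply hfg (hF.comp_smul g) γ I, per_apply hf hF γ' (g • I), h, ← mul_smul, ← mul_smul]
  congr 3
  group

end Fermat.Agent.S48.M.Per
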