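import Fermat.Agent.S48.M.Per.Hecke
import Fermat.Agent.S48.M.Per.Trans

/-!
# S48 / M / PER-EQ : equivariance of the period homomorphism for `T'_p` and the diamonds; separation lemma
[key S48/M-PER-EQ, ~250 lines, from the stubs `per_eq_sum`, `per_conj`, `per_smul`, `heckeN_eq_sum`, `glTG_val`, `glTG_det_pos`, `IsNebC.heckeN`, `IsNebC.isCF_GG`, `S16.Lower.PeriodAux.lift_rel`]

`(lvG M 1).Γ = GG M 1` by `rfl`.
* `per_heckeN`: `per_eq_sum (glTG M p) …` with `σ = D.σ`, `δ = D.δ`; the relation in `GL (Fin 2) ℝ` from `D.rel` by `lift_rel` + `glTG_val`.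
* `per_dia`: `f ∣ g = χ (g 1 1) • f` (`hf.slash`), `per_conj`, `per_smul`.
* `eq_zero_of_forall_hom` (MATHLIB ONLY): `E` is a finitely generated torsion free `ℤ`-module (`Module.Finite.iff_addGroup_fg`, `AddSubgroup.fg_iff_addGroup_fg`…; torsion free because `ℂ` has characteristic zero), so free
  (`Module.free_of_finite_type_torsion_free'`), and `Module.forall_dual_apply_eq_zero_iff ℤ e`; an `E →ₗ[ℤ] ℤ` is an `E →+ ℤ` (`LinearMap.toAddMonoidHom`).
* `fg_range_per`: the range of a homomorphism from the finitely generated group `Additive (GG M 1)` (`fg_GG`; `AddGroup.fg_iff_…`, `AddMonoidHom.range` of an FG group: `AddGroup.fg_range`/`AddSubgroup.FG.map` of `⊤`).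
-/

set_option autoImplicit false

open UpperHalfPlane ModularForm ModularFormClass CongruenceSubgroup Fermat.Agent.S24 Fermat.Agent.S29
open Fermat.Agent.S16.Lower ModularCurve ModularCurve.Period
open scoped MatrixGroups Manifold

noncomputable section

namespace Fermat.Agent.S48.M.Per

variable {M : ℕ} [NeZero M] {χ : ℤ → ℂ} {f : ℍ → ℂ}

instance finiteIndex_lvG : (lvG M 1).Γ.FiniteIndex := finiteIndex_GG (M := M)

theorem IsNebC.isCF_lvG (hf : IsNebC M 2 χ f) : S20.IsCF (lvG M 1).Γ 2 f := IsNebC.isCF_GG hf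

theorem per_heckeN (hf : IsNebC M 2 χ f) {p : ℕ} (hp : p.Prime) (hpM : ¬ p ∣ M) (γ : (lvG M 1).Γ)
    (D : HDataL (lvG M 1) (matTG M p) γ) :
    per (lvG M 1).Γ (heckeN (χ (pbar M p)) p f) (Additive.ofMul γ) =
      ∑ i, per (lvG M 1).Γ f (Additive.ofMul (D.δ i)) := by
  refine per_eq_sum (glTG M p) (glTG_det_pos M p) (IsNebC.isCF_lvG hf)
    (IsNebC.isCF_lvG (IsNebC.heckeN hf hp hpM)) (heckeN_eq_sum hf p) γ D.σ D.δ ?_
  intro i
  exact PeriodAux.lift_rel _ _ _ _ (glTG_val M hp.ne_zero i) (glTG_val M hp.ne_zero (D.σ i)) _ _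
    (D.rel i)

theorem per_dia (hf : IsNebC M 2 χ f) (g : SL(2, ℤ)) (hg : g ∈ Gamma0 M) (γ γ' : (lvG M 1).Γ)
    (h : (γ' : SL(2, ℤ)) = g * γ * g⁻¹) :
    per (lvG M 1).Γ f (Additive.ofMul γ') = χ (g 1 1) * per (lvG M 1).Γ f (Additive.ofMul γ) := by
  have hsl := hf.slash g hg
  have hfg : S20.IsCF (lvG M 1).Γ 2 (f ∣[(2 : ℤ)] g) := by
    rw [hsl]
    exact (IsNebC.isCF_lvG hf).smul _
  rw [← per_conj (IsNebC.isCF_lvG hf) g hfg γ γ' h, hsl, per_smul (IsNebC.isCF_lvG hf)]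

theorem eq_zero_of_forall_hom (E : AddSubgroup ℂ) (hE : E.FG) (e : E) (h : ∀ l : E →+ ℤ, l e = 0) :
    e = 0 := by
  have h1 : AddGroup.FG E := (AddGroup.fg_iff_addSubgroup_fg E).2 hE
  have h2 : Module.Finite ℤ E := Module.Finite.iff_addGroup_fg.2 h1
  have h3 : Module.IsTorsionFree ℤ E :=
    Function.Injective.moduleIsTorsionFree (N := ℂ) (fun x : E => (x : ℂ)) Subtype.val_injective
      (fun _ _ => rfl)
  have h4 : Module.Free ℤ E := inferInstance
  rw [← Module.forall_dual_apply_eq_zero_iff ℤ e]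
  intro l
  exact h l.toAddMonoidHom

theorem fg_range_per (f : ℍ → ℂ) : (per (lvG M 1).Γ f).range.FG := by
  have h1 : Group.FG (lvG M 1).Γ := fg_GG (M := M)
  have h2 : AddGroup.FG (Additive (lvG M 1).Γ) := inferInstance
  rw [← AddGroup.fg_iff_addSubgroup_fg]
  exact AddGroup.fg_range _

end Fermat.Agent.S48.M.Per
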