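import Fermat.Agent.S48.M.Per.Abs
import Fermat.Agent.S48.M.Per.Equiv

/-!
# S48 / M / PER : the eigenvector in `k ⊗ XL` attached to a mod `ℓ` eigenform of weight two with nebentypus  (helper16)
-/

set_option autoImplicit false

open UpperHalfPlane ModularForm ModularFormClass CongruenceSubgroup Fermat.Agent.S24 Fermat.Agent.S29
open Fermat.Agent.S16.Lower ModularCurve ModularCurve.Period TensorProduct
open scoped MatrixGroups Manifold

noncomputable section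

namespace Fermat.Agent.S48.M.Per

section Red

variable {k : Type} [Field k] (φ : Zbar →+* k)

open Classical in
/-- `φ` extended by zero -/
def red (z : ℂ) : k := if h : IsIntegral ℤ z then φ ⟨z, h⟩ else 0

theorem red_coe (z : Zbar) : red φ (z : ℂ) = φ z := by
  have h : IsIntegral ℤ (z : ℂ) := z.2
  rw [red, dif_pos h]

theorem red_add {z w : ℂ} (hz : IsIntegral ℤ z) (hw : IsIntegral ℤ w) :
    red φ (z + w) = red φ z + red φ w := by
  have := red_coe φ ((⟨z, hz⟩ : Zbar) + ⟨w, hw⟩)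
  rw [map_add, ← red_coe φ ⟨z, hz⟩, ← red_coe φ ⟨w, hw⟩] at this
  exact this

theorem red_mul {z w : ℂ} (hz : IsIntegral ℤ z) (hw : IsIntegral ℤ w) :
    red φ (z * w) = red φ z * red φ w := by
  have := red_coe φ ((⟨z, hz⟩ : Zbar) * ⟨w, hw⟩)
  rw [map_mul, ← red_coe φ ⟨z, hz⟩, ← red_coe φ ⟨w, hw⟩] at this
  exact this

theorem red_neg {z : ℂ} (hz : IsIntegral ℤ z) : red φ (-z) = - red φ z := by
  have := red_coe φ (-(⟨z, hz⟩ : Zbar))
  rw [map_neg, ← red_coe φ ⟨z, hz⟩] at this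
  exact this

theorem red_zero : red φ 0 = 0 := by
  have := red_coe φ 0
  rw [map_zero] at this
  exact this

theorem red_natCast (n : ℕ) : red φ (n : ℂ) = (n : k) := by
  have := red_coe φ (n : Zbar)
  rw [map_natCast] at this
  exact this

end Red

section Grp

variable (M : ℕ) [NeZero M] {k : Type} [Field k] (φ : Zbar →+* k) (χ : ℤ → ℂ) (g : ℍ → ℂ) (c : ℕ → Zbar)

/-- membership in the group `𝒢` -/
structure InG (f : ℍ → ℂ) : Prop where
  neb : IsNebC M 2 χ f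
  per : ∀ γ, per (lvG M 1).Γ f γ ∈ (per (lvG M 1).Γ g).range
  int : ∀ n, IsIntegral ℤ (coeffFun f n)
  prop : ∃ μ : k, ∀ n, red φ (coeffFun f n) = μ * φ (c n)

variable {M φ χ g c}

theorem InG.add {f f' : ℍ → ℂ} (h : InG M φ χ g c f) (h' : InG M φ χ g c f') : InG M φ χ g c (f + f') := by
  refine ⟨IsNebC.add h.neb h'.neb, fun γ => ?_, fun n => ?_, ?_⟩
  · rw [per_add (IsNebC.isCF_lvG h.neb) (IsNebC.isCF_lvG h'.neb)]
    exact AddSubgroup.add_mem _ (h.per γ) (h'.per γ)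
  · rw [coeffFun_add h.neb.isQ h'.neb.isQ]
    exact (h.int n).add (h'.int n)
  · obtain ⟨μ, hμ⟩ := h.prop
    obtain ⟨μ', hμ'⟩ := h'.prop
    refine ⟨μ + μ', fun n => ?_⟩
    rw [coeffFun_add h.neb.isQ h'.neb.isQ, Pi.add_apply, red_add φ (h.int n) (h'.int n), hμ, hμ', add_mul]

theorem InG.smul {f : ℍ → ℂ} (h : InG M φ χ g c f) (a : Zbar)
    (hper : ∀ γ, (a : ℂ) * Per.per (lvG M 1).Γ f γ ∈ (Per.per (lvG M 1).Γ g).range) :
    InG M φ χ g c ((a : ℂ) • f) := by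
  refine ⟨IsNebC.smul _ h.neb, fun γ => ?_, fun n => ?_, ?_⟩
  · rw [per_smul (IsNebC.isCF_lvG h.neb)]
    exact hper γ
  · rw [coeffFun_smul _ h.neb.isQ]
    exact a.2.mul (h.int n)
  · obtain ⟨μ, hμ⟩ := h.prop
    refine ⟨φ a * μ, fun n => ?_⟩
    rw [coeffFun_smul _ h.neb.isQ, Pi.smul_apply, smul_eq_mul, red_mul φ a.2 (h.int n), hμ, red_coe,
      mul_assoc]

theorem InG.neg {f : ℍ → ℂ} (h : InG M φ χ g c f) : InG M φ χ g c (-f) := by
  have := h.smul (-1) (fun γ => by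
    have : (((-1 : Zbar) : ℂ)) * Per.per (lvG M 1).Γ f γ = - Per.per (lvG M 1).Γ f γ := by
      push_cast; ring
    rw [this]
    exact AddSubgroup.neg_mem _ (h.per γ))
  have h2 : (((-1 : Zbar) : ℂ)) • f = -f := by
    push_cast; simp
  rwa [h2] at this

theorem inG_zero : InG M φ χ g c 0 := by
  have h0 : ∀ γ, Per.per (lvG M 1).Γ (0 : ℍ → ℂ) γ = 0 := by
    intro γ
    have := per_smul (IsNebC.isCF_lvG (isNebC_zero (M := M) (k := 2) (χ := χ))) 0 γ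
    simpa using this
  refine ⟨isNebC_zero, fun γ => ?_, fun n => ?_, ⟨0, fun n => ?_⟩⟩
  · rw [h0]; exact AddSubgroup.zero_mem _
  · rw [coeffFun_zero]; exact isIntegral_zero
  · rw [coeffFun_zero, Pi.zero_apply, red_zero, zero_mul]

variable (M φ χ g c)

/-- the group `𝒢` -/
def GGrp : AddSubgroup (ℍ → ℂ) where
  carrier := {f | InG M φ χ g c f}
  add_mem' := fun h h' => h.add h'
  zero_mem' := inG_zero
  neg_mem' := fun h => h.neg

end Grp

section Chi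

variable {M : ℕ} [NeZero M] {χ : ℤ → ℂ} {g : ℍ → ℂ}

theorem chi_mul_of (hg : IsNebC M 2 χ g) (hg0 : g ≠ 0) (γ₁ γ₂ γ₃ : SL(2, ℤ)) (h₁ : γ₁ ∈ Gamma0 M)
    (h₂ : γ₂ ∈ Gamma0 M) (h₃ : γ₃ ∈ Gamma0 M)
    (h : ((γ₁ 1 1 * γ₂ 1 1 : ℤ) : ZMod M) = ((γ₃ 1 1 : ℤ) : ZMod M)) :
    χ (γ₁ 1 1) * χ (γ₂ 1 1) = χ (γ₃ 1 1) := by
  obtain ⟨z, hz⟩ : ∃ z, g z ≠ 0 := by
    by_contra hcon
    push Not at hcon
    exact hg0 (funext hcon)
  have hm : γ₁ * γ₂ ∈ Gamma0 M := Subgroup.mul_mem _ h₁ h₂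
  have he : (((γ₁ * γ₂) 1 1 : ℤ) : ZMod M) = ((γ₃ 1 1 : ℤ) : ZMod M) := by
    have := map_mul (Gamma0Map M) ⟨γ₁, h₁⟩ ⟨γ₂, h₂⟩
    change (((γ₁ * γ₂) 1 1 : ℤ) : ZMod M) = ((γ₁ 1 1 : ℤ) : ZMod M) * ((γ₂ 1 1 : ℤ) : ZMod M) at this
    rw [this, ← h]; push_cast; rfl
  have h1 := IsNebC.slash_eq hg _ _ hm h₃ he
  rw [SlashAction.slash_mul, hg.slash γ₁ h₁, SL_smul_slash, hg.slash γ₂ h₂, smul_smul,
    hg.slash γ₃ h₃] at h1
  have h2 := congrFun h1 z
  rw [Pi.smul_apply, Pi.smul_apply, smul_eq_mul, smul_eq_mul] at h2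
  exact mul_right_cancel₀ hz h2

theorem chi_eq_of (hg : IsNebC M 2 χ g) (hg0 : g ≠ 0) (γ₁ γ₂ : SL(2, ℤ)) (h₁ : γ₁ ∈ Gamma0 M)
    (h₂ : γ₂ ∈ Gamma0 M) (h : ((γ₁ 1 1 : ℤ) : ZMod M) = ((γ₂ 1 1 : ℤ) : ZMod M)) :
    χ (γ₁ 1 1) = χ (γ₂ 1 1) := by
  obtain ⟨z, hz⟩ : ∃ z, g z ≠ 0 := by
    by_contra hcon
    push Not at hcon
    exact hg0 (funext hcon)
  have h1 := IsNebC.slash_eq hg _ _ h₁ h₂ h
  rw [hg.slash γ₁ h₁, hg.slash γ₂ h₂] at h1
  have h2 := congrFun h1 z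
  rw [Pi.smul_apply, Pi.smul_apply, smul_eq_mul, smul_eq_mul] at h2
  exact mul_right_cancel₀ hz h2

theorem chi_one_of (hg : IsNebC M 2 χ g) (hg0 : g ≠ 0) : χ 1 = 1 := by
  obtain ⟨z, hz⟩ : ∃ z, g z ≠ 0 := by
    by_contra hcon
    push Not at hcon
    exact hg0 (funext hcon)
  have h2 := congrFun (nebAux_chi_one hg) z
  rw [Pi.smul_apply, smul_eq_mul] at h2
  exact mul_right_cancel₀ hz (by rw [h2, one_mul])

theorem exists_eps {k : Type} [Field k] (φ : Zbar →+* k) (hg : IsNebC M 2 χ g) (hg0 : g ≠ 0)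
    (x : ℤ → Zbar) (hx : ∀ d, (x d : ℂ) = χ d) :
    ∃ ε : (ZMod M)ˣ →* kˣ, ∀ (d : ℤ) (u : (ZMod M)ˣ), (u : ZMod M) = (d : ZMod M) →
      ((ε u : kˣ) : k) = φ (x d) := by
  have hone : x (gamD M 1 1 1) = 1 := by
    apply Subtype.ext
    rw [hx]
    have := chi_eq_of hg hg0 (gamD M 1) 1 (gamD_mem M 1) (Subgroup.one_mem _) (by
      rw [gamD_apply]; simp)
    rw [this]
    have e : ((1 : SL(2, ℤ)) 1 1 : ℤ) = 1 := by simp
    rw [e, chi_one_of hg hg0]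
    rfl
  have hmul : ∀ u v : (ZMod M)ˣ, x (gamD M (u * v) 1 1) = x (gamD M u 1 1) * x (gamD M v 1 1) := by
    intro u v
    apply Subtype.ext
    have := chi_mul_of hg hg0 (gamD M u) (gamD M v) (gamD M (u * v)) (gamD_mem M u) (gamD_mem M v)
      (gamD_mem M _) (by push_cast; rw [gamD_apply, gamD_apply, gamD_apply]; rfl)
    change (x (gamD M (u * v) 1 1) : ℂ) = (x (gamD M u 1 1) : ℂ) * (x (gamD M v 1 1) : ℂ)
    rw [hx, hx, hx, this]
  let e : (ZMod M)ˣ →* k :=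
    { toFun := fun u => φ (x (gamD M u 1 1))
      map_one' := by rw [hone, map_one]
      map_mul' := fun u v => by rw [hmul, map_mul] }
  refine ⟨e.toHomUnits, fun d u hu => ?_⟩
  rw [MonoidHom.coe_toHomUnits]
  change φ (x (gamD M u 1 1)) = φ (x d)
  congr 1
  apply Subtype.ext
  rw [hx, hx]
  have hcop : IsCoprime d (M : ℤ) := by
    have h1 : IsUnit ((d : ℤ) : ZMod M) := hu ▸ u.isUnit
    exact ((ZMod.coe_int_isUnit_iff_isCoprime d M).1 h1).symm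
  obtain ⟨γ, hγ, h11, -⟩ := exists_mem_Gamma0_d M d hcop
  rw [← h11]
  exact chi_eq_of hg hg0 _ _ (gamD_mem M u) hγ (by rw [gamD_apply, h11, hu])

end Chi

section Ops

variable {M : ℕ} [NeZero M] {k : Type} [Field k] {φ : Zbar →+* k} {χ : ℤ → ℂ} {g : ℍ → ℂ} {c : ℕ → Zbar}

theorem pbar_mul (p : ℕ) (hpM : Nat.Coprime p M) : ((pbar M p * (p : ℤ) : ℤ) : ZMod M) = 1 := by
  push_cast
  rw [pbar, gamD_apply, ← hd_unitOf M p hpM, Units.inv_mul]

theorem chi_pbar_mul (hg : IsNebC M 2 χ g) (hg0 : g ≠ 0) (p : ℕ) (hpM : Nat.Coprime p M) :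
    χ (pbar M p) * χ (p : ℤ) = 1 := by
  have hcop : IsCoprime (p : ℤ) (M : ℤ) := Nat.isCoprime_iff_coprime.2 hpM
  obtain ⟨γ, hγ, h11, -⟩ := exists_mem_Gamma0_d M (p : ℤ) hcop
  have := IsNebC.chi_mul hg hg0 (gamD M (unitOf M p)⁻¹) γ (gamD_mem M _) hγ (by
    rw [h11]; exact pbar_mul p hpM)
  rw [h11] at this
  exact this

/-- the coefficients of `T' f` modulo `φ` -/
theorem red_coeffFun_heckeN (x : ℤ → Zbar) (hx : ∀ d, (x d : ℂ) = χ d) (b : ℕ → k) {p : ℕ} (hp : p.Prime)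
    (hxx : φ (x (pbar M p)) * φ (x p) = 1)
    (hb : ∀ n : ℕ,
      φ (c (p * n)) + φ (x p) * (p : k) * (if p ∣ n then φ (c (n / p)) else 0) = b p * φ (c n))
    {f : ℍ → ℂ} (hf : IsQ f) (hint : ∀ n, IsIntegral ℤ (coeffFun f n)) (μ : k)
    (hμ : ∀ n, red φ (coeffFun f n) = μ * φ (c n)) (n : ℕ) :
    IsIntegral ℤ (coeffFun (heckeN (χ (pbar M p)) p f) n) ∧
    red φ (coeffFun (heckeN (χ (pbar M p)) p f) n) = (φ (x (pbar M p)) * b p) * (μ * φ (c n)) := by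
  rw [coeffFun_heckeN hf _ hp.ne_zero]
  have hi1 : IsIntegral ℤ (χ (pbar M p)) := by rw [← hx]; exact (x _).2
  have hi2 : IsIntegral ℤ (if p ∣ n then coeffFun f (n / p) else 0) := by
    split_ifs
    · exact hint _
    · exact isIntegral_zero
  have hi3 : IsIntegral ℤ ((p : ℂ)) := isIntegral_natCast p
  refine ⟨(hi1.mul (hint _)).add (hi3.mul hi2), ?_⟩
  rw [red_add φ (hi1.mul (hint _)) (hi3.mul hi2), red_mul φ hi1 (hint _), red_mul φ hi3 hi2, red_natCast,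
    hμ, ← hx, red_coe]
  have h2 : red φ (if p ∣ n then coeffFun f (n / p) else 0) = μ * (if p ∣ n then φ (c (n / p)) else 0) := by
    split_ifs
    · exact hμ _
    · rw [red_zero, mul_zero]
  rw [h2]
  have := hb n
  linear_combination (φ (x (pbar M p)) * μ) * this -
    ((p : k) * μ * (if p ∣ n then φ (c (n / p)) else 0)) * hxx

theorem InG.heckeN (x : ℤ → Zbar) (hx : ∀ d, (x d : ℂ) = χ d) (b : ℕ → k) {p : ℕ} (hp : p.Prime)
    (hpM : ¬ p ∣ M) (hxx : φ (x (pbar M p)) * φ (x p) = 1)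
    (hb : ∀ n : ℕ,
      φ (c (p * n)) + φ (x p) * (p : k) * (if p ∣ n then φ (c (n / p)) else 0) = b p * φ (c n))
    {f : ℍ → ℂ} (h : InG M φ χ g c f) : InG M φ χ g c (heckeN (χ (pbar M p)) p f) := by
  obtain ⟨μ, hμ⟩ := h.prop
  refine ⟨IsNebC.heckeN h.neb hp hpM, fun γ => ?_,
    fun n => (red_coeffFun_heckeN x hx b hp hxx hb h.neb.isQ h.int μ hμ n).1,
    ⟨(φ (x (pbar M p)) * b p) * μ, fun n => ?_⟩⟩
  · obtain ⟨D⟩ := nonempty_HDataL M p hp hpM (Additive.toMul γ)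
    have := per_heckeN h.neb hp hpM (Additive.toMul γ) D
    rw [ofMul_toMul] at this
    rw [this]
    exact AddSubgroup.sum_mem _ fun i _ => h.per _
  · rw [(red_coeffFun_heckeN x hx b hp hxx hb h.neb.isQ h.int μ hμ n).2]; ring

theorem InG.dia (x : ℤ → Zbar) (hx : ∀ d, (x d : ℂ) = χ d) (d : (ZMod M)ˣ)
    {f : ℍ → ℂ} (h : InG M φ χ g c f) : InG M φ χ g c (χ (gamD M d 1 1) • f) := by
  rw [← hx]
  refine h.smul _ fun γ => ?_
  have hmem : gamD M d * (Additive.toMul γ : (lvG M 1).Γ) * (gamD M d)⁻¹ ∈ (lvG M 1).Γ :=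
    conj_mem_GG _ _ (gamD_mem M d) (Additive.toMul γ).2
  have := per_dia h.neb (gamD M d) (gamD_mem M d) (Additive.toMul γ) ⟨_, hmem⟩ rfl
  rw [ofMul_toMul] at this
  rw [hx, ← this]
  exact h.per _

end Ops

section Fam

variable (M : ℕ) [NeZero M] {k : Type} [Field k] (φ : Zbar →+* k) (χ : ℤ → ℂ) (g : ℍ → ℂ) (c : ℕ → Zbar)

/-- the index set of the operators -/
abbrev Idx : Type := {p : ℕ // p.Prime ∧ ¬ p ∣ M} ⊕ (ZMod M)ˣ

/-- the operators on functions -/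
def opF : Idx M → (ℍ → ℂ) → (ℍ → ℂ)
  | Sum.inl p => heckeN (χ (pbar M p.1)) p.1
  | Sum.inr d => fun f => χ (gamD M d 1 1) • f

theorem opF_add (i : Idx M) (f f' : ℍ → ℂ) : opF M χ i (f + f') = opF M χ i f + opF M χ i f' := by
  cases i with
  | inl p => exact heckeN_add _ _ _ _
  | inr d => exact smul_add _ _ _

theorem opF_comm (i j : Idx M) {f : ℍ → ℂ} (hf : IsQ f) :
    opF M χ i (opF M χ j f) = opF M χ j (opF M χ i f) := by
  cases i with
  | inl p =>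
    cases j with
    | inl q => exact heckeN_comm hf _ _ p.2.1 q.2.1 (fun h => by rw [h])
    | inr d => exact heckeN_smul _ _ _ _
  | inr d =>
    cases j with
    | inl q => exact (heckeN_smul _ _ _ _).symm
    | inr e => exact smul_comm _ _ _

/-- the lattice of periods -/
abbrev PerE : AddSubgroup ℂ := (per (lvG M 1).Γ g).range

variable {M φ χ g c}

/-- the integral cocycle `λ ∘ per f` -/
def cocy (l : PerE M g →+ ℤ) (f : GGrp M φ χ g c) : XL (lvG M 1) :=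
  ⟨l.comp ((per (lvG M 1).Γ f.1).codRestrict (PerE M g) f.2.per), fun γ hγ => by
    have h0 := per_parabolic (IsNebC.isCF_lvG f.2.neb) γ hγ
    change l ⟨per (lvG M 1).Γ f.1 (Additive.ofMul γ), _⟩ = 0
    have : (⟨per (lvG M 1).Γ f.1 (Additive.ofMul γ), f.2.per _⟩ : PerE M g) = 0 := Subtype.ext h0
    rw [this, map_zero]⟩

theorem cocy_apply (l : PerE M g →+ ℤ) (f : GGrp M φ χ g c) (γ : Additive (lvG M 1).Γ) :
    (cocy l f : Additive (lvG M 1).Γ →+ ℤ) γ = l ⟨per (lvG M 1).Γ f.1 γ, f.2.per γ⟩ := rfl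

theorem cocy_add (l : PerE M g →+ ℤ) (f f' : GGrp M φ χ g c) : cocy l (f + f') = cocy l f + cocy l f' := by
  apply Subtype.ext
  refine AddMonoidHom.ext fun γ => ?_
  change (cocy l (f + f') : Additive (lvG M 1).Γ →+ ℤ) γ =
    (cocy l f : Additive (lvG M 1).Γ →+ ℤ) γ + (cocy l f' : Additive (lvG M 1).Γ →+ ℤ) γ
  rw [cocy_apply, cocy_apply, cocy_apply, ← map_add]
  congr 1
  apply Subtype.ext
  change per (lvG M 1).Γ (f.1 + f'.1) γ = per (lvG M 1).Γ f.1 γ + per (lvG M 1).Γ f'.1 γ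
  rw [per_add (IsNebC.isCF_lvG f.2.neb) (IsNebC.isCF_lvG f'.2.neb)]
  rfl

theorem eq_zero_of_cocy (f : GGrp M φ χ g c) (h : ∀ l : PerE M g →+ ℤ, cocy l f = 0) : f = 0 := by
  apply Subtype.ext
  refine eq_zero_of_per (IsNebC.isCF_lvG f.2.neb) (AddMonoidHom.ext fun γ => ?_)
  have h1 := eq_zero_of_forall_hom (PerE M g) (fg_range_per g) ⟨per (lvG M 1).Γ f.1 γ, f.2.per γ⟩
    (fun l => by
      rw [← cocy_apply, h l]
      rfl)
  exact congrArg Subtype.val h1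

/-- reduction of the `q`-expansion -/
def redQ : GGrp M φ χ g c →+ (ℕ → k) where
  toFun f := fun n => red φ (coeffFun f.1 n)
  map_zero' := by
    funext n
    change red φ (coeffFun (0 : ℍ → ℂ) n) = 0
    rw [coeffFun_zero, Pi.zero_apply, red_zero]
  map_add' f f' := by
    funext n
    change red φ (coeffFun (f.1 + f'.1) n) = red φ (coeffFun f.1 n) + red φ (coeffFun f'.1 n)
    rw [coeffFun_add f.2.neb.isQ f'.2.neb.isQ, Pi.add_apply, red_add φ (f.2.int n) (f'.2.int n)]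

theorem cocy_transfer (l : PerE M g →+ ℤ) (f f' : GGrp M φ χ g c) {p : ℕ} (hp : p.Prime) (hpM : ¬ p ∣ M)
    (hf' : f'.1 = heckeN (χ (pbar M p)) p f.1) (u' : Additive (lvG M 1).Γ →+ ℤ)
    (h : IsTransferL (lvG M 1) (matTG M p) (cocy l f : Additive (lvG M 1).Γ →+ ℤ) u') :
    u' = (cocy l f' : Additive (lvG M 1).Γ →+ ℤ) := by
  refine AddMonoidHom.ext fun γ => ?_
  obtain ⟨D⟩ := nonempty_HDataL M p hp hpM (Additive.toMul γ)
  have h1 := h (Additive.toMul γ) D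
  rw [ofMul_toMul] at h1
  rw [h1, cocy_apply]
  simp only [cocy_apply]
  rw [← map_sum]
  congr 1
  apply Subtype.ext
  rw [AddSubgroup.val_finsetSum]
  have h2 := per_heckeN f.2.neb hp hpM (Additive.toMul γ) D
  rw [ofMul_toMul] at h2
  change _ = per _ f'.1 γ
  rw [hf', h2]

theorem cocy_dia (l : PerE M g →+ ℤ) (f f' : GGrp M φ χ g c) (d : (ZMod M)ˣ)
    (hf' : f'.1 = χ (gamD M d 1 1) • f.1) (u' : Additive (lvG M 1).Γ →+ ℤ)
    (h : IsDiaL M d (cocy l f : Additive (lvG M 1).Γ →+ ℤ) u') :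
    u' = (cocy l f' : Additive (lvG M 1).Γ →+ ℤ) := by
  refine AddMonoidHom.ext fun γ => ?_
  have hmem : gamD M d * (Additive.toMul γ : (lvG M 1).Γ) * (gamD M d)⁻¹ ∈ (lvG M 1).Γ :=
    conj_mem_GG _ _ (gamD_mem M d) (Additive.toMul γ).2
  have h1 := h (gamD M d) (gamD_mem M d) (gamD_apply M d) (Additive.toMul γ) ⟨_, hmem⟩ rfl
  rw [ofMul_toMul] at h1
  rw [h1, cocy_apply, cocy_apply]
  congr 1
  apply Subtype.ext
  have h2 := per_dia f.2.neb (gamD M d) (gamD_mem M d) (Additive.toMul γ) ⟨_, hmem⟩ rfl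
  rw [ofMul_toMul] at h2
  change _ = per _ f'.1 γ
  rw [hf', per_smul (IsNebC.isCF_lvG f.2.neb), ← h2]

end Fam

section Final

/-- **PER, main theorem.**  The eigenvector in `k ⊗ XL` attached to a mod `ℓ` eigenform of weight two with nebentypus. -/
theorem exists_eigenvector (M : ℕ) [NeZero M] {k : Type} [Field k]
    (φ : Zbar →+* k) (χ : ℤ → ℂ) (g : ℍ → ℂ) (hg : IsNebC M 2 χ g)
    (c : ℕ → Zbar) (hc : ∀ n, (c n : ℂ) = coeffFun g n) (h1 : φ (c 1) ≠ 0)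
    (x : ℤ → Zbar) (hx : ∀ d, (x d : ℂ) = χ d) (b : ℕ → k)
    (hb : ∀ p : ℕ, p.Prime → ¬ p ∣ M → ∀ n : ℕ,
      φ (c (p * n)) + φ (x p) * (p : k) * (if p ∣ n then φ (c (n / p)) else 0) = b p * φ (c n))
    [Module.Free ℤ (XL (lvG M 1))] [Module.Finite ℤ (XL (lvG M 1))]
    (T : ℕ → Module.End ℤ (XL (lvG M 1)))
    (hT : ∀ p : ℕ, p.Prime → ¬ p ∣ M → ∀ u : XL (lvG M 1),
      IsTransferL (lvG M 1) (matTG M p) (u : Additive (lvG M 1).Γ →+ ℤ) (T p u))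
    (Dm : (ZMod M)ˣ → Module.End ℤ (XL (lvG M 1)))
    (hD : ∀ d (u : XL (lvG M 1)), IsDiaL M d (u : Additive (lvG M 1).Γ →+ ℤ) (Dm d u)) :
    ∃ (ε : (ZMod M)ˣ →* kˣ) (y : k ⊗[ℤ] XL (lvG M 1)),
      (∀ (d : ℤ) (u : (ZMod M)ˣ), (u : ZMod M) = (d : ZMod M) → ((ε u : kˣ) : k) = φ (x d)) ∧ y ≠ 0 ∧
      (∀ p : ℕ, p.Prime → ¬ p ∣ M → ∀ u : (ZMod M)ˣ, (u : ZMod M) = (p : ZMod M) →
        (T p).baseChange k y = (b p * (((ε u)⁻¹ : kˣ) : k)) • y) ∧
      ∀ d, (Dm d).baseChange k y = ((ε d : kˣ) : k) • y := by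
  classical
  have hg0 : g ≠ 0 := by
    rintro rfl
    apply h1
    have : c 1 = 0 := Subtype.ext (by rw [hc, coeffFun_zero]; rfl)
    rw [this, map_zero]
  obtain ⟨ε, hε⟩ := exists_eps φ hg hg0 x hx
  have hxx : ∀ p : ℕ, p.Prime → ¬ p ∣ M → φ (x (pbar M p)) * φ (x p) = 1 := by
    intro p hp hpM
    have := chi_pbar_mul hg hg0 p ((Nat.Prime.coprime_iff_not_dvd hp).2 hpM)
    rw [← map_mul]
    have h2 : x (pbar M p) * x p = 1 := Subtype.ext (by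
      change (x (pbar M p) : ℂ) * (x p : ℂ) = 1
      rw [hx, hx, this])
    rw [h2, map_one]
  have hmem : ∀ (i : Idx M) (f : GGrp M φ χ g c), opF M χ i f.1 ∈ GGrp M φ χ g c := by
    intro i f
    cases i with
    | inl p => exact InG.heckeN x hx b p.2.1 p.2.2 (hxx p.1 p.2.1 p.2.2) (hb p.1 p.2.1 p.2.2) f.2
    | inr d => exact InG.dia x hx d f.2
  let s : Idx M → GGrp M φ χ g c →+ GGrp M φ χ g c := fun i =>
    AddMonoidHom.mk' (fun f => ⟨opF M χ i f.1, hmem i f⟩)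
      (fun f f' => Subtype.ext (opF_add M χ i f.1 f'.1))
  let t : Idx M → Module.End ℤ (XL (lvG M 1)) := Sum.elim (fun p => T p.1) Dm
  let lam : Idx M → k := Sum.elim (fun p => φ (x (pbar M p.1)) * b p.1) (fun d => φ (x (gamD M d 1 1)))
  let cc : (PerE M g →+ ℤ) → GGrp M φ χ g c →+ XL (lvG M 1) := fun l =>
    AddMonoidHom.mk' (cocy l) (cocy_add l)
  have hgG : InG M φ χ g c g := ⟨hg, fun γ => ⟨γ, rfl⟩, fun n => by rw [← hc]; exact (c n).2,
    ⟨1, fun n => by rw [← hc, red_coe, one_mul]⟩⟩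
  have hs : ∀ i j f, s i (s j f) = s j (s i f) := fun i j f =>
    Subtype.ext (opF_comm M χ i j f.2.neb.isQ)
  have hcc : ∀ i l f, t i (cc l f) = cc l (s i f) := by
    intro i l f
    apply Subtype.ext
    cases i with
    | inl p => exact cocy_transfer l f (s (Sum.inl p) f) p.2.1 p.2.2 rfl _ (hT p.1 p.2.1 p.2.2 (cocy l f))
    | inr d => exact cocy_dia l f (s (Sum.inr d) f) d rfl _ (hD d (cocy l f))
  have hR : ∀ i f, redQ (s i f) = lam i • redQ f := by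
    intro i f
    funext n
    cases i with
    | inl p =>
      obtain ⟨μ, hμ⟩ := f.2.prop
      change red φ (coeffFun (heckeN (χ (pbar M p.1)) p.1 f.1) n) =
        (φ (x (pbar M p.1)) * b p.1) * red φ (coeffFun f.1 n)
      rw [(red_coeffFun_heckeN x hx b p.2.1 (hxx p.1 p.2.1 p.2.2) (hb p.1 p.2.1 p.2.2) f.2.neb.isQ
        f.2.int μ hμ n).2, hμ]
    | inr d =>
      change red φ (coeffFun (χ (gamD M d 1 1) • f.1) n) =
        φ (x (gamD M d 1 1)) * red φ (coeffFun f.1 n)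
      rw [coeffFun_smul _ f.2.neb.isQ, Pi.smul_apply, smul_eq_mul, ← hx, red_mul φ (x _).2 (f.2.int n),
        red_coe]
  have hRg : redQ (⟨g, hgG⟩ : GGrp M φ χ g c) ≠ 0 := by
    intro h0
    apply h1
    have := congrFun h0 1
    change red φ (coeffFun g 1) = 0 at this
    rwa [← hc, red_coe] at this
  obtain ⟨y, hy, hty⟩ := exists_eigenvector_of_family t s hs cc hcc
    (fun f hf => eq_zero_of_cocy f hf) redQ lam hR ⟨g, hgG⟩ hRg
  refine ⟨ε, y, hε, hy, ?_, ?_⟩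
  · intro p hp hpM u hu
    have h2 := hty (Sum.inl ⟨p, hp, hpM⟩)
    change (T p).baseChange k y = (φ (x (pbar M p)) * b p) • y at h2
    rw [h2]
    congr 1
    have h3 : ((ε u : kˣ) : k) = φ (x (p : ℤ)) := hε p u (by rw [hu]; simp)
    rw [Units.val_inv_eq_inv_val, h3, mul_comm]
    congr 1
    exact eq_inv_of_mul_eq_one_left (hxx p hp hpM)
  · intro d
    have h2 := hty (Sum.inr d)
    change (Dm d).baseChange k y = φ (x (gamD M d 1 1)) • y at h2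
    rw [h2, hε (gamD M d 1 1) d (gamD_apply M d).symm]

end Final

end Fermat.Agent.S48.M.Per
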