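import Fermat.Agent.S29.Eig

/-!
# S48 / M / PER-ABS : the abstract Deligne–Serre lifting lemma, in the form "mod `ℓ` eigenform ⇒ eigenvector in `k ⊗ X`"
[key S48/M-PER-ABS, ~400 lines, MATHLIB + `S29/Eig.lean` (`EigAux.exists_functional`, `EigAux.exists_vector`; Mathlib only)]

`X` a free `ℤ`-module of finite rank with endomorphisms `t i` (NOT assumed to commute).  `𝒢` an abelian group (think: cusp forms with integral `q`-expansion) with COMMUTING
endomorphisms `s i`; a family of additive maps `c l : 𝒢 → X` (think: `l ∘ (period map)`), equivariant and jointly injective; `R : 𝒢 → W` additive (reduction of the `q`-expansion),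
`R (s i f) = lam i • R f` for ALL `f ∈ 𝒢`, `R g ≠ 0`.   Then `k ⊗ X` contains a nonzero simultaneous eigenvector with eigenvalues `lam i`.

## Proof
1. `Y₀ = span_ℤ {c l f}`, `Y = {x | ∃ n ≠ 0, n • x ∈ Y₀}` (saturation; a `Submodule ℤ X`).  `t i Y₀ ⊆ Y₀` (`t i (c l f) = c l (s i f)`), so `t i Y ⊆ Y`; `u i := (t i).restrict`.
   `t i (t j x) = t j (t i x)` on the generators, so on `Y₀` (`Submodule.span_induction`), so on `Y` (`X` torsion free: `n • (…) = 0`).
   `Y` is finite and free over `ℤ` (submodule of a finite free module over a PID: `Module.Finite` by noetherianity, `Module.Free` by `Submodule.nonempty_basis_of_pid`/instance).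
2. `exists_eigenvector_of_faithful` (the commuting case; COPY of the proof of `S29.exists_eigenvector_mod`): `X` finite free, `t i` commuting, `lam i : k`,
   `H : ∀ τ ∈ Algebra.adjoin ℤ (range fun i => (t i, lam i)), τ.1 = 0 → τ.2 = 0`  ⇒  eigenvector.  [`𝔸 = adjoin` is commutative, acts on `Dual X` by transposition, finite, faithful:
   `τ • m = σ • m ∀ m ⇒ τ.1 = σ.1`, then `H (τ - σ)` gives `τ.2 = σ.2`.  `ψ = snd : 𝔸 → k`.  `exists_functional`, `exists_vector`.]
3. `H` for `(Y, u i)`: by `Algebra.adjoin_induction` every `τ` in the adjoin satisfies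
   `Q τ := ∃ e : 𝒢 →+ 𝒢, (∀ l f, ((τ.1 ⟨c l f, _⟩ : Y) : X) = c l (e f)) ∧ ∀ f, R (e f) = τ.2 • R f`
   (generators: `e = s i`; `algebraMap n`: `e = n • id`; sums: `e + e'`; products `τ τ'`: `e ∘ e'`).   If `τ.1 = 0`: `c l (e g) = 0` for all `l`, so `e g = 0`, `τ.2 • R g = 0`, `τ.2 = 0`.
4. `y₀ ∈ k ⊗ Y`.  `X ⧸ Y` is finite and torsion free, so free, so projective: a section `σ` of `Y.mkQ` (`Module.projective_lifting_property`), `π x = x - σ (mkQ x) ∈ Y`: a retraction `π : X → Y` of the inclusion `ι`.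
   `(π.baseChange k) ∘ (ι.baseChange k) = id`, so `y = ι.baseChange k y₀ ≠ 0`; `(t i).baseChange k y = ι.baseChange k ((u i).baseChange k y₀)` (`LinearMap.baseChange_comp`, `t i ∘ ι = ι ∘ u i`).
-/

set_option autoImplicit false

open TensorProduct

namespace Fermat.Agent.S48.M.Per

/-- the commuting case -/
theorem exists_eigenvector_of_faithful {X : Type} [AddCommGroup X] [Module.Free ℤ X] [Module.Finite ℤ X]
    {ι : Type} (t : ι → Module.End ℤ X) (hcomm : ∀ i j, Commute (t i) (t j))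
    {k : Type} [Field k] (lam : ι → k)
    (H : ∀ τ ∈ Algebra.adjoin ℤ (Set.range fun i => ((t i, lam i) : Module.End ℤ X × k)),
      τ.1 = 0 → τ.2 = 0) :
    ∃ y : k ⊗[ℤ] X, y ≠ 0 ∧ ∀ i, (t i).baseChange k y = lam i • y := by
  let s : Set (Module.End ℤ X × k) := Set.range fun i => (t i, lam i)
  have hs : ∀ u ∈ s, ∀ v ∈ s, u * v = v * u := by
    rintro _ ⟨i, rfl⟩ _ ⟨j, rfl⟩
    exact Prod.ext (hcomm i j) (mul_comm _ _)
  have hmc : IsMulCommutative (Algebra.adjoin ℤ s) := Algebra.isMulCommutative_adjoin ℤ hs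
  let _ : CommRing (Algebra.adjoin ℤ s) :=
    { (inferInstance : Ring (Algebra.adjoin ℤ s)) with mul_comm := fun u v => hmc.is_comm.comm u v }
  let ρ : Algebra.adjoin ℤ s →+* Module.End ℤ (Module.Dual ℤ X) :=
    { toFun := fun τ => Module.Dual.transpose (R := ℤ) τ.1.1
      map_one' := by
        ext m y
        rfl
      map_mul' := fun τ σ => by
        rw [mul_comm τ σ]
        ext m y
        rfl
      map_zero' := by
        ext m y
        simp
      map_add' := fun τ σ => by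
        ext m y
        simp }
  let _ : Module (Algebra.adjoin ℤ s) (Module.Dual ℤ X) := Module.compHom _ ρ
  have hsmul : ∀ (τ : Algebra.adjoin ℤ s) (m : Module.Dual ℤ X), τ • m = m ∘ₗ τ.1.1 := fun τ m => rfl
  have hfin : Module.Finite (Algebra.adjoin ℤ s) (Module.Dual ℤ X) := by
    have htower : IsScalarTower ℤ (Algebra.adjoin ℤ s) (Module.Dual ℤ X) := by
      refine ⟨fun n τ m => ?_⟩
      rw [hsmul, hsmul]
      ext y
      simp
    exact Module.Finite.of_restrictScalars_finite ℤ _ _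
  have hfaith : FaithfulSMul (Algebra.adjoin ℤ s) (Module.Dual ℤ X) := by
    refine ⟨fun {τ σ} h => ?_⟩
    have h1 : τ.1.1 = σ.1.1 := by
      ext y
      rw [← sub_eq_zero, ← Module.forall_dual_apply_eq_zero_iff ℤ]
      intro m
      have := DFunLike.congr_fun (h m) y
      rw [hsmul, hsmul, LinearMap.comp_apply, LinearMap.comp_apply] at this
      rw [map_sub, this, sub_self]
    have h2 : τ.1.2 = σ.1.2 := by
      have h3 := H (τ.1 - σ.1) ((Algebra.adjoin ℤ s).sub_mem τ.2 σ.2)
        (by rw [Prod.fst_sub, h1, sub_self])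
      rw [Prod.snd_sub] at h3
      exact sub_eq_zero.mp h3
    exact Subtype.ext (Prod.ext h1 h2)
  let ψ : Algebra.adjoin ℤ s →+* k :=
    (RingHom.snd (Module.End ℤ X) k).comp (Algebra.adjoin ℤ s).subtype
  obtain ⟨g, hg, hgψ⟩ := S29.EigAux.exists_functional (M := Module.Dual ℤ X) ψ
  obtain ⟨y, hy, hyT⟩ := S29.EigAux.exists_vector g hg
  refine ⟨y, hy, fun i => hyT (t i) (lam i) fun m => ?_⟩
  exact hgψ ⟨(t i, lam i), Algebra.subset_adjoin ⟨i, rfl⟩⟩ m

/-- a saturated submodule of a finite free `ℤ`-module is a direct summand -/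
theorem exists_retraction {X : Type} [AddCommGroup X] [Module.Free ℤ X] [Module.Finite ℤ X]
    (Y : Submodule ℤ X) (hY : ∀ (n : ℤ) (x : X), n ≠ 0 → n • x ∈ Y → x ∈ Y) :
    ∃ π : X →ₗ[ℤ] Y, ∀ y : Y, π y = y := by
  have htf : Module.IsTorsionFree ℤ (X ⧸ Y) := by
    rw [Module.isTorsionFree_iff_smul_eq_zero]
    intro n q h
    induction q using Submodule.Quotient.induction_on with
    | H x =>
      by_cases hn : n = 0
      · exact Or.inl hn
      · right
        rw [← Submodule.Quotient.mk_smul, Submodule.Quotient.mk_eq_zero] at h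
        exact (Submodule.Quotient.mk_eq_zero Y).mpr (hY n x hn h)
  have hfree : Module.Free ℤ (X ⧸ Y) := Module.free_of_finite_type_torsion_free'
  obtain ⟨σ, hσ⟩ := Module.projective_lifting_property Y.mkQ (LinearMap.id : (X ⧸ Y) →ₗ[ℤ] (X ⧸ Y))
    (Submodule.mkQ_surjective Y)
  have hσ' : ∀ q, Y.mkQ (σ q) = q := fun q => LinearMap.congr_fun hσ q
  refine ⟨LinearMap.codRestrict Y (LinearMap.id - σ ∘ₗ Y.mkQ) (fun x => ?_), fun y => ?_⟩
  · rw [← Submodule.Quotient.mk_eq_zero, ← Submodule.mkQ_apply]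
    simp only [LinearMap.sub_apply, LinearMap.id_apply, LinearMap.comp_apply, map_sub, hσ', sub_self]
  · apply Subtype.ext
    have : Y.mkQ (y : X) = 0 := by
      rw [Submodule.mkQ_apply]; exact (Submodule.Quotient.mk_eq_zero Y).mpr y.2
    simp [this]

theorem exists_eigenvector_of_family {X : Type} [AddCommGroup X] [Module.Free ℤ X] [Module.Finite ℤ X]
    {ι : Type} (t : ι → Module.End ℤ X)
    {𝒢 : Type} [AddCommGroup 𝒢] (s : ι → 𝒢 →+ 𝒢) (hs : ∀ i j f, s i (s j f) = s j (s i f))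
    {Λ : Type} (c : Λ → 𝒢 →+ X) (hc : ∀ i l f, t i (c l f) = c l (s i f))
    (hinj : ∀ f, (∀ l, c l f = 0) → f = 0)
    {k : Type} [Field k] {W : Type} [AddCommGroup W] [Module k W] (R : 𝒢 →+ W) (lam : ι → k)
    (hR : ∀ i f, R (s i f) = lam i • R f) (g : 𝒢) (hg : R g ≠ 0) :
    ∃ y : k ⊗[ℤ] X, y ≠ 0 ∧ ∀ i, (t i).baseChange k y = lam i • y := by
  classical
  let Y₀ : Submodule ℤ X := Submodule.span ℤ {x | ∃ l f, x = c l f}
  let Y : Submodule ℤ X :=
    { carrier := {x | ∃ n : ℤ, n ≠ 0 ∧ n • x ∈ Y₀}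
      zero_mem' := ⟨1, one_ne_zero, by simp⟩
      add_mem' := by
        rintro a b ⟨n, hn, ha⟩ ⟨m, hm, hb⟩
        refine ⟨n * m, mul_ne_zero hn hm, ?_⟩
        have : (n * m) • (a + b) = m • (n • a) + n • (m • b) := by
          rw [smul_add, smul_smul, smul_smul, mul_comm m n]
        rw [this]
        exact Y₀.add_mem (Y₀.smul_mem m ha) (Y₀.smul_mem n hb)
      smul_mem' := by
        rintro r a ⟨n, hn, ha⟩
        exact ⟨n, hn, by rw [smul_comm]; exact Y₀.smul_mem r ha⟩ }
  have hY₀Y : ∀ x ∈ Y₀, x ∈ Y := fun x hx => ⟨1, one_ne_zero, by rwa [one_smul]⟩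
  have hsat : ∀ (n : ℤ) (x : X), n ≠ 0 → n • x ∈ Y → x ∈ Y := by
    rintro n x hn ⟨m, hm, h⟩
    exact ⟨m * n, mul_ne_zero hm hn, by rwa [mul_smul]⟩
  have ht₀ : ∀ i, ∀ x ∈ Y₀, t i x ∈ Y₀ := by
    intro i x hx
    induction hx using Submodule.span_induction with
    | mem x hx =>
      obtain ⟨l, f, rfl⟩ := hx
      rw [hc]
      exact Submodule.subset_span ⟨l, _, rfl⟩
    | zero => rw [map_zero]; exact Y₀.zero_mem
    | add a b _ _ ha hb => rw [map_add]; exact Y₀.add_mem ha hb
    | smul r a _ ha => rw [map_smul]; exact Y₀.smul_mem r ha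
  have htY : ∀ i, ∀ x ∈ Y, t i x ∈ Y := by
    rintro i x ⟨n, hn, h⟩
    exact ⟨n, hn, by rw [← map_smul]; exact ht₀ i _ h⟩
  have hcomm₀ : ∀ i j, ∀ x ∈ Y₀, t i (t j x) = t j (t i x) := by
    intro i j x hx
    induction hx using Submodule.span_induction with
    | mem x hx =>
      obtain ⟨l, f, rfl⟩ := hx
      rw [hc, hc, hc, hc, hs]
    | zero => simp
    | add a b _ _ ha hb => simp only [map_add, ha, hb]
    | smul r a _ ha => simp only [map_smul, ha]
  have hcommY : ∀ i j, ∀ x ∈ Y, t i (t j x) = t j (t i x) := by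
    rintro i j x ⟨n, hn, h⟩
    have := hcomm₀ i j _ h
    simp only [map_smul] at this
    exact smul_right_injective X hn this
  let u : ι → Module.End ℤ Y := fun i => (t i).restrict (htY i)
  have hucomm : ∀ i j, Commute (u i) (u j) := by
    intro i j
    apply LinearMap.ext
    intro y
    exact Subtype.ext (hcommY i j y y.2)
  have hmem : ∀ l f, c l f ∈ Y := fun l f => hY₀Y _ (Submodule.subset_span ⟨l, f, rfl⟩)
  have HQ : ∀ τ ∈ Algebra.adjoin ℤ (Set.range fun i => ((u i, lam i) : Module.End ℤ Y × k)),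
      ∃ e : 𝒢 →+ 𝒢, (∀ l f, ((τ.1 ⟨c l f, hmem l f⟩ : Y) : X) = c l (e f)) ∧
        ∀ f, R (e f) = τ.2 • R f := by
    intro τ hτ
    induction hτ using Algebra.adjoin_induction with
    | mem v hv =>
      obtain ⟨i, rfl⟩ := hv
      exact ⟨s i, fun l f => hc i l f, fun f => hR i f⟩
    | algebraMap r =>
      refine ⟨r • AddMonoidHom.id 𝒢, fun l f => ?_, fun f => ?_⟩
      · have h1 : ((algebraMap ℤ (Module.End ℤ Y × k)) r).1 = r • (1 : Module.End ℤ Y) := by
          simp
        rw [h1]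
        simp
      · have h2 : ((algebraMap ℤ (Module.End ℤ Y × k)) r).2 = (r : k) := by simp
        rw [h2, Int.cast_smul_eq_zsmul]
        simp
    | add v w _ _ hv hw =>
      obtain ⟨e, he1, he2⟩ := hv
      obtain ⟨e', he1', he2'⟩ := hw
      refine ⟨e + e', fun l f => ?_, fun f => ?_⟩
      · rw [Prod.fst_add, LinearMap.add_apply, Submodule.coe_add, he1, he1', AddMonoidHom.add_apply,
          map_add]
      · rw [AddMonoidHom.add_apply, map_add, he2, he2', Prod.snd_add, add_smul]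
    | mul v w _ _ hv hw =>
      obtain ⟨e, he1, he2⟩ := hv
      obtain ⟨e', he1', he2'⟩ := hw
      refine ⟨e.comp e', fun l f => ?_, fun f => ?_⟩
      · have : w.1 ⟨c l f, hmem l f⟩ = ⟨c l (e' f), hmem l (e' f)⟩ := Subtype.ext (he1' l f)
        rw [Prod.fst_mul, Module.End.mul_apply, this, he1]
        rfl
      · rw [AddMonoidHom.comp_apply, he2, he2', Prod.snd_mul, mul_smul]
  obtain ⟨y₀, hy₀, hy₀e⟩ := exists_eigenvector_of_faithful u hucomm lam (by
    intro τ hτ h0
    obtain ⟨e, he1, he2⟩ := HQ τ hτ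
    have h1 : e g = 0 := hinj _ fun l => by rw [← he1 l g, h0]; rfl
    have h2 := he2 g
    rw [h1, map_zero] at h2
    exact (smul_eq_zero.mp h2.symm).resolve_right hg)
  obtain ⟨π, hπ⟩ := exists_retraction Y hsat
  refine ⟨Y.subtype.baseChange k y₀, ?_, ?_⟩
  · intro h
    apply hy₀
    have h1 : (π.baseChange k) (Y.subtype.baseChange k y₀) = y₀ := by
      rw [← LinearMap.comp_apply, ← LinearMap.baseChange_comp]
      have : π ∘ₗ Y.subtype = LinearMap.id := LinearMap.ext hπ
      rw [this, LinearMap.baseChange_id]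
      rfl
    rw [← h1, h, map_zero]
  · intro i
    rw [← LinearMap.comp_apply, ← LinearMap.baseChange_comp]
    have : t i ∘ₗ Y.subtype = Y.subtype ∘ₗ u i := LinearMap.ext fun y => rfl
    rw [this, LinearMap.baseChange_comp, LinearMap.comp_apply, hy₀e, map_smul]

end Fermat.Agent.S48.M.Per
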