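import Fermat.Agent.S48.M.G1
import Fermat.Agent.S48.H.Basic

/-!
# S48 / M / PER-NEB : forms with nebentypus `χ : ℤ → ℂ` (ANY function) are `±Γ₁(M)`-invariant
[key S48/M-PER-NEB, ~350 lines, elementary 2x2 integer matrices + slash action; may use the stubs of `S48/H/Basic.lean` (`slash_eq_of_d_eq`, `IsNebC.smul`, …) as black boxes]

* `exists_mem_Gamma0_d`: `d` prime to `M`: Bézout `a d - b M = 1`, `γ = [[a, b],[M, d]]`.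
* `IsNebC.slash_Gamma1`: `γ ∈ Γ₁(M)`, `d = γ 1 1 = 1 + M t`.  `γ' = [[a', b'],[M, d]] ∈ Γ₀(M)` (previous lemma).  `f ∣ γ = χ d • f = f ∣ γ'`.  `γ' T^(-t)` has lower right entry `d - M t = 1`, so
  `f ∣ (γ' T^(-t)) = χ 1 • f = f ∣ 1 = f`; on the other hand `f ∣ (γ' T^(-t)) = (χ d • f) ∣ T^(-t) = χ d • (χ 1 • f) = χ d • f` (`T^(-t) ∈ Γ₀(M)` has lower right entry `1`).  So `χ d • f = f`.
  (`ModularForm.smul_slash` / `SL_smul_slash`; write `T^(-t)` as the explicit matrix `[[1, -t],[0, 1]]`.)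
* `IsNebC.slash_eq`: `slash_eq_of_d_eq`.
* `IsNebC.isCF_GG`: `γ ∈ GG M 1`: `d ≡ 1`: `γ ∈ Γ₁(M)` (`Gamma1_mem`: `a ≡ 1` follows from `a d - b c = 1`, `M ∣ c`); `d ≡ -1`: `-γ ∈ Γ₁(M)` and `f ∣[2] (-γ) = f ∣[2] γ` (even weight: `ModularForm.slash_neg'`/`SL_slash_apply`, `denom (-γ) = - denom γ`).
* `IsNebC.chi_mul`: `γ₁ γ₂ ∈ Γ₀(M)` has lower right entry `c₁ b₂ + d₁ d₂ ≡ d₁ d₂ ≡ 1`, so it lies in `Γ₁(M)`: `f = f ∣ (γ₁ γ₂) = χ d₂ • χ d₁ • f`; evaluate at a point where `f ≠ 0`.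
* `conj_mem_GG`: lower right entry of `g γ g⁻¹` is `≡ d_γ` mod `M` (all lower left entries are `≡ 0`).
* `finiteIndex_GG`: `Gamma M ≤ GG M 1` and `Gamma M` has finite index (`Subgroup.finiteIndex_of_le`, instance for `CongruenceSubgroup.Gamma`).  `fg_GG`: `Subgroup.fg_of_index_ne_zero` + `S29.HeckeXAux.fg_SL2Z` (copy the 3 lines: `SpecialLinearGroup.SL2Z_generators`).
-/

set_option autoImplicit false

open UpperHalfPlane ModularForm ModularFormClass CongruenceSubgroup Fermat.Agent.S24 Fermat.Agent.S29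
open scoped MatrixGroups Manifold

noncomputable section

namespace Fermat.Agent.S48.M.Per

variable {M : ℕ} {k : ℤ} {χ : ℤ → ℂ} {f g : ℍ → ℂ}

theorem exists_mem_Gamma0_d (M : ℕ) (d : ℤ) (hd : IsCoprime d (M : ℤ)) :
    ∃ γ : SL(2, ℤ), γ ∈ Gamma0 M ∧ γ 1 1 = d ∧ γ 1 0 = M := by
  obtain ⟨a, b, hab⟩ := hd
  refine ⟨⟨!![a, -b; (M : ℤ), d], ?_⟩, ?_, rfl, rfl⟩
  · rw [Matrix.det_fin_two_of]
    linear_combination hab
  · rw [Gamma0_mem]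
    change (((M : ℤ) : ℤ) : ZMod M) = 0
    simp

theorem nebAux_slash_apply (k : ℤ) (f : ℍ → ℂ) (γ : SL(2, ℤ)) (z : ℍ) :
    (f ∣[k] γ) z = f (γ • z) * (((γ 1 0 : ℤ) : ℂ) * z + ((γ 1 1 : ℤ) : ℂ)) ^ (-k) := by
  rw [SL_slash_apply]
  congr 2

theorem nebAux_chi_one (hf : IsNebC M k χ f) : χ 1 • f = f := by
  have h1 := hf.slash 1 (Subgroup.one_mem _)
  rw [SlashAction.slash_one] at h1
  have e : ((1 : SL(2, ℤ)) 1 1 : ℤ) = 1 := by simp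
  rw [e] at h1
  exact h1.symm

theorem IsNebC.slash_Gamma1 (hf : IsNebC M k χ f) (γ : SL(2, ℤ)) (hγ : γ ∈ Gamma1 M) : f ∣[k] γ = f := by
  have hγ0 : γ ∈ Gamma0 M := Gamma1_in_Gamma0 M hγ
  have hd1 : ((γ 1 1 : ℤ) : ZMod M) = 1 := ((Gamma1_mem M γ).mp hγ).2.1
  obtain ⟨t, ht⟩ : (M : ℤ) ∣ γ 1 1 - 1 := by
    rw [← ZMod.intCast_zmod_eq_zero_iff_dvd]
    push_cast
    rw [hd1, sub_self]
  have hcop : IsCoprime (γ 1 1) (M : ℤ) := ⟨1, -t, by linear_combination ht⟩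
  obtain ⟨γ', hγ', h11, h10⟩ := exists_mem_Gamma0_d M (γ 1 1) hcop
  obtain ⟨U, hU⟩ : ∃ U : SL(2, ℤ), U = ⟨!![1, -t; 0, 1], by rw [Matrix.det_fin_two_of]; ring⟩ :=
    ⟨_, rfl⟩
  have hU10 : U 1 0 = 0 := by rw [hU]; rfl
  have hU11 : U 1 1 = 1 := by rw [hU]; rfl
  have hU01 : U 0 1 = -t := by rw [hU]; rfl
  have hUmem : U ∈ Gamma0 M := by rw [Gamma0_mem, hU10]; simp
  have hprod : (γ' * U) 1 1 = 1 := by
    rw [Matrix.SpecialLinearGroup.coe_mul, Matrix.mul_apply, Fin.sum_univ_two, h10, h11, hU01, hU11]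
    linear_combination ht
  have h1 := hf.slash (γ' * U) (Subgroup.mul_mem _ hγ' hUmem)
  rw [hprod, nebAux_chi_one hf, SlashAction.slash_mul, hf.slash γ' hγ', SL_smul_slash,
    hf.slash U hUmem, hU11, nebAux_chi_one hf, h11] at h1
  rw [hf.slash γ hγ0, h1]

theorem IsNebC.slash_eq (hf : IsNebC M k χ f) (γ₁ γ₂ : SL(2, ℤ)) (h₁ : γ₁ ∈ Gamma0 M) (h₂ : γ₂ ∈ Gamma0 M)
    (hd : ((γ₁ 1 1 : ℤ) : ZMod M) = ((γ₂ 1 1 : ℤ) : ZMod M)) : f ∣[k] γ₁ = f ∣[k] γ₂ :=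
  slash_eq_of_d_eq (fun γ hγ => IsNebC.slash_Gamma1 hf γ hγ) γ₁ γ₂ h₁ h₂ hd

theorem nebAux_neg_slash (f : ℍ → ℂ) (γ : SL(2, ℤ)) : f ∣[(2 : ℤ)] (-γ) = f ∣[(2 : ℤ)] γ := by
  funext z
  rw [nebAux_slash_apply, nebAux_slash_apply, ModularGroup.SL_neg_smul]
  congr 1
  have e0 : ((-γ) 1 0 : ℤ) = - γ 1 0 := by simp
  have e1 : ((-γ) 1 1 : ℤ) = - γ 1 1 := by simp
  rw [e0, e1]
  have : (((-γ 1 0 : ℤ) : ℂ) * z + ((-γ 1 1 : ℤ) : ℂ)) = -(((γ 1 0 : ℤ) : ℂ) * z + ((γ 1 1 : ℤ) : ℂ)) := by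
    push_cast; ring
  rw [this]
  exact Even.neg_zpow (by decide) _

theorem IsNebC.isCF_GG (hf : IsNebC M 2 χ f) : S20.IsCF (GG M 1) 2 f := by
  refine ⟨hf.isQ.holo, ?_, hf.zero⟩
  intro γ hγ
  rw [mem_GG, mul_one] at hγ
  obtain ⟨h0, h1 | h1⟩ := hγ
  · exact IsNebC.slash_Gamma1 hf γ (h0_mem_Gamma1 ⟨γ, h0⟩ h1)
  · have hn0 : -γ ∈ Gamma0 M := by
      rw [Gamma0_mem] at h0 ⊢
      have e0 : ((-γ) 1 0 : ℤ) = - γ 1 0 := by simp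
      rw [e0]; push_cast; rw [h0, neg_zero]
    have hn1 : Gamma0Map M ⟨-γ, hn0⟩ = 1 := by
      change (((-γ) 1 1 : ℤ) : ZMod M) = 1
      have e1 : ((-γ) 1 1 : ℤ) = - γ 1 1 := by simp
      rw [e1]; push_cast; rw [h1, neg_neg]
    rw [← nebAux_neg_slash]
    exact IsNebC.slash_Gamma1 hf (-γ) (h0_mem_Gamma1 ⟨-γ, hn0⟩ hn1)

theorem IsNebC.chi_mul (hf : IsNebC M k χ f) (hf0 : f ≠ 0) (γ₁ γ₂ : SL(2, ℤ)) (h₁ : γ₁ ∈ Gamma0 M)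
    (h₂ : γ₂ ∈ Gamma0 M) (h : ((γ₁ 1 1 * γ₂ 1 1 : ℤ) : ZMod M) = 1) : χ (γ₁ 1 1) * χ (γ₂ 1 1) = 1 := by
  obtain ⟨z, hz⟩ : ∃ z, f z ≠ 0 := by
    by_contra hcon
    push Not at hcon
    exact hf0 (funext hcon)
  have hm : γ₁ * γ₂ ∈ Gamma1 M := by
    refine h0_mem_Gamma1 (⟨γ₁, h₁⟩ * ⟨γ₂, h₂⟩ : Gamma0 M) ?_
    rw [map_mul]
    change ((γ₁ 1 1 : ℤ) : ZMod M) * ((γ₂ 1 1 : ℤ) : ZMod M) = 1
    rw [← h]; push_cast; rfl
  have h1 := IsNebC.slash_Gamma1 hf _ hm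
  rw [SlashAction.slash_mul, hf.slash γ₁ h₁, SL_smul_slash, hf.slash γ₂ h₂, smul_smul] at h1
  have h2 := congrFun h1 z
  rw [Pi.smul_apply, smul_eq_mul] at h2
  exact mul_right_cancel₀ hz (by rw [h2, one_mul])

theorem IsNebC.add (hf : IsNebC M k χ f) (hg : IsNebC M k χ g) : IsNebC M k χ (f + g) :=
  ⟨hf.isQ.add hg.isQ, fun γ hγ => by
      rw [SlashAction.add_slash, hf.slash γ hγ, hg.slash γ hγ, smul_add],
    fun γ => by rw [SlashAction.add_slash]; exact (hf.zero γ).add (hg.zero γ)⟩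

theorem IsNebC.neg (hf : IsNebC M k χ f) : IsNebC M k χ (-f) := by
  have := hf.smul (-1)
  simpa using this

theorem isNebC_zero : IsNebC M k χ 0 :=
  ⟨IsQ.zero, fun γ _ => by rw [SlashAction.zero_slash, smul_zero],
    fun γ => by rw [SlashAction.zero_slash]; exact Filter.zero_zeroAtFilter _⟩

theorem conj_mem_GG (g γ : SL(2, ℤ)) (hg : g ∈ Gamma0 M) (hγ : γ ∈ GG M 1) : g * γ * g⁻¹ ∈ GG M 1 := by
  rw [mem_GG, mul_one] at hγ ⊢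
  obtain ⟨h0, h1⟩ := hγ
  have hmem : g * γ * g⁻¹ ∈ Gamma0 M :=
    Subgroup.mul_mem _ (Subgroup.mul_mem _ hg h0) (Subgroup.inv_mem _ hg)
  refine ⟨hmem, ?_⟩
  have e : (((g * γ * g⁻¹) 1 1 : ℤ) : ZMod M) = ((γ 1 1 : ℤ) : ZMod M) := by
    have h2 : (Gamma0Map M).toHomUnits (⟨g, hg⟩ * ⟨γ, h0⟩ * ⟨g, hg⟩⁻¹ : Gamma0 M) =
        (Gamma0Map M).toHomUnits ⟨γ, h0⟩ := by
      rw [map_mul, map_mul, map_inv, mul_comm, ← mul_assoc, inv_mul_cancel, one_mul]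
    have h3 := congrArg Units.val h2
    rw [MonoidHom.coe_toHomUnits, MonoidHom.coe_toHomUnits] at h3
    exact h3
  rw [e]
  exact h1

theorem nebAux_Gamma_le : Gamma M ≤ GG M 1 := by
  intro γ hγ
  rw [Gamma_mem] at hγ
  rw [mem_GG, mul_one, Gamma0_mem]
  exact ⟨hγ.2.2.1, Or.inl hγ.2.2.2⟩

instance finiteIndex_GG [NeZero M] : (GG M 1).FiniteIndex :=
  Subgroup.finiteIndex_of_le (nebAux_Gamma_le (M := M))

instance fg_GG [NeZero M] : Group.FG (GG M 1) := by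
  have : Group.FG SL(2, ℤ) := ⟨⟨{ModularGroup.S, ModularGroup.T}, by
    simpa using SpecialLinearGroup.SL2Z_generators⟩⟩
  exact Subgroup.fg_of_index_ne_zero (GG M 1)

end Fermat.Agent.S48.M.Per
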