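import Fermat.Agent.S21.Final
import Fermat.Agent.S20.Basic

/-!
# S48 / M / PER-PRIM : the period homomorphism of a function level cusp form of weight two on a subgroup of finite index
[keys S48/M-PER-PRIM-a (`exists_prim`, `per_apply`, `per_add`, `per_smul`, `per_zsmul`…; ~250 lines), S48/M-PER-PRIM-b (`per_parabolic`; ~150), S48/M-PER-PRIM-c (`eq_zero_of_per`; ~80)]
PORT of `S21/Primitive.lean` + `S21/Final.lean` from `CuspForm (Gamma0 N) 2` to `S20.IsCF Γ 2 f`; the tools there are already generic: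
`S21.IsPrim`, `IsPrim.comp_smul`, `IsPrim.sub_const`, `S21.exists_isPrim_of_periodic`, `S21.exists_conj_upper`, `S21.const_of_re_invariant`.

* `exists_prim`: copy of `S21.exists_isPrim_slash` + `exists_primitive'`.  Periodicity of `f ∣ δ`: `Γ` has finite index, so `(δ T δ⁻¹)^h ∈ Γ` for some `h > 0`
  (`Subgroup.exists_pow_mem_of_index_ne_zero`), hence `(f ∣ δ) ∣ T^h = f ∣ (δ T^h δ⁻¹) ∣ δ = f ∣ δ`, i.e. `(f ∣ δ)(z + h) = (f ∣ δ)(z)`  (or go through `hf.toCuspForm` and copy the S21 proof verbatim).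
* `per`: `IsEquivariantPrimitive.periodHom` of a chosen primitive (`0` if there is none).  `per_apply`: two primitives differ by a constant (`IsPrim.sub_const`).
* `per_parabolic`: copy of `S21.periodMap_mem_parabolicHoms`.
* `eq_zero_of_per`: `per = 0` ⇒ `F (γ z) - F z = 0` ⇒ `const_of_re_invariant Γ F` (with `c = 0`) ⇒ `F` constant ⇒ `f = 0` (as `S21.eq_zero_of_prim_const`).
-/

set_option autoImplicit false

open UpperHalfPlane ModularCurve ModularCurve.Period Filter Topology Fermat.Agent.S21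
open scoped MatrixGroups ModularForm Manifold

noncomputable section

namespace Fermat.Agent.S48.M.Per

variable (Γ : Subgroup SL(2, ℤ))

theorem primAux_slash [Γ.FiniteIndex] (f : CuspForm Γ 2) (δ : SL(2, ℤ)) :
    ∃ F : ℍ → ℂ, IsPrim F (f ∣[(2 : ℤ)] δ) ∧ Tendsto F atImInfty (𝓝 0) := by
  obtain ⟨M, hM, hper⟩ := Subgroup.IsArithmetic.exists_nat_mem_strictPeriods_conj
    ((Γ : Subgroup SL(2, ℤ)) : Subgroup (GL (Fin 2) ℝ))
  have h1 := hper δ⁻¹
  rw [map_inv] at h1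
  have h2 := SlashInvariantFormClass.periodic_comp_ofComplex
    (CuspForm.translate f (δ : GL (Fin 2) ℝ)) h1
  have hM' : (0 : ℝ) < M := by exact_mod_cast hM
  exact exists_isPrim_of_periodic hM' h2 ((CuspFormClass.holo f).slash 2 _)
    (CuspFormClass.zero_at_infty_slash f δ)

theorem primAux_equiv {Γ : Subgroup SL(2, ℤ)} {f F : ℍ → ℂ} (hf : S20.IsCF Γ 2 f) (hF : IsPrim F f) :
    IsEquivariantPrimitive Γ F := by
  intro γ
  have h1 : IsPrim (fun z => F ((γ : SL(2, ℤ)) • z)) f := by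
    refine (hF.comp_smul γ).congr_right fun z => ?_
    exact congrFun (hf.inv γ γ.2) z
  exact ⟨F ((γ : SL(2, ℤ)) • I) - F I, fun z => h1.sub_const hF z I⟩

theorem exists_prim [Γ.FiniteIndex] {f : ℍ → ℂ} (hf : S20.IsCF Γ 2 f) :
    ∃ F : ℍ → ℂ, IsPrim F f ∧ IsEquivariantPrimitive Γ F ∧
      ∀ δ : SL(2, ℤ), ∃ L : ℂ, Tendsto (fun w : ℍ => F (δ • w)) atImInfty (𝓝 L) := by
  obtain ⟨F, hF, hF0⟩ := primAux_slash Γ hf.toCuspForm 1
  have hF' : IsPrim F f := hF.congr_right fun z => by simp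
  refine ⟨F, hF', primAux_equiv hf hF', ?_⟩
  intro δ
  obtain ⟨G, hG, hG0⟩ := primAux_slash Γ hf.toCuspForm δ
  have h1 := hF'.comp_smul δ
  refine ⟨F (δ • I) - G I, ?_⟩
  have h2 : (fun w : ℍ => F (δ • w)) = fun w => G w + (F (δ • I) - G I) := by
    funext w
    have := h1.sub_const hG w I
    linear_combination this
  rw [h2]
  simpa using hG0.add_const (F (δ • I) - G I)

open Classical in
/-- the period homomorphism `γ ↦ ∫_z^{γ z} f` -/
def per (f : ℍ → ℂ) : Additive Γ →+ ℂ :=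
  if h : ∃ F : ℍ → ℂ, IsPrim F f ∧ IsEquivariantPrimitive Γ F then h.choose_spec.2.periodHom else 0

variable {Γ}

theorem per_apply [Γ.FiniteIndex] {f F : ℍ → ℂ} (hf : S20.IsCF Γ 2 f) (hF : IsPrim F f) (γ : Γ) (z : ℍ) :
    per Γ f (Additive.ofMul γ) = F ((γ : SL(2, ℤ)) • z) - F z := by
  classical
  have h : ∃ F : ℍ → ℂ, IsPrim F f ∧ IsEquivariantPrimitive Γ F := ⟨F, hF, primAux_equiv hf hF⟩
  rw [per, dif_pos h, IsEquivariantPrimitive.periodHom_apply, ← h.choose_spec.2.sub_eq_period γ z]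
  have h1 := h.choose_spec.1.sub_const hF ((γ : SL(2, ℤ)) • z) z
  linear_combination h1

theorem per_add [Γ.FiniteIndex] {f g : ℍ → ℂ} (hf : S20.IsCF Γ 2 f) (hg : S20.IsCF Γ 2 g) :
    per Γ (f + g) = per Γ f + per Γ g := by
  obtain ⟨F, hF, -⟩ := exists_prim Γ hf
  obtain ⟨G, hG, -⟩ := exists_prim Γ hg
  refine AddMonoidHom.ext fun γ => ?_
  have h1 := per_apply (hf.add hg) (hF.add hG) (Additive.toMul γ) I
  have h2 := per_apply hf hF (Additive.toMul γ) I
  have h3 := per_apply hg hG (Additive.toMul γ) I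
  simp only [ofMul_toMul] at h1 h2 h3
  rw [AddMonoidHom.add_apply, h1, h2, h3]
  simp only [Pi.add_apply]
  ring

theorem per_smul [Γ.FiniteIndex] {f : ℍ → ℂ} (hf : S20.IsCF Γ 2 f) (a : ℂ) (γ : Additive Γ) :
    per Γ (a • f) γ = a * per Γ f γ := by
  obtain ⟨F, hF, -⟩ := exists_prim Γ hf
  have h1 := per_apply (hf.smul a) (hF.const_smul a) (Additive.toMul γ) I
  have h2 := per_apply hf hF (Additive.toMul γ) I
  simp only [ofMul_toMul] at h1 h2
  rw [h1, h2]
  simp only [Pi.smul_apply, smul_eq_mul]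
  ring

theorem per_parabolic [Γ.FiniteIndex] {f : ℍ → ℂ} (hf : S20.IsCF Γ 2 f) : IsParabolicHom Γ (per Γ f) := by
  intro γ hγ
  obtain ⟨F, hF, -, hlim⟩ := exists_prim Γ hf
  obtain ⟨δ, hδ⟩ := exists_conj_upper (γ : SL(2, ℤ)) hγ
  obtain ⟨L, hL⟩ := hlim δ
  set γ' : SL(2, ℤ) := δ⁻¹ * γ * δ with hγ'
  have hup : Tendsto (fun τ : ℍ => γ' • τ) atImInfty atImInfty := by
    have : ((γ' : SL(2, ℤ)) : GL (Fin 2) ℝ) 1 0 = 0 := by
      simp [hδ]
    exact tendsto_smul_atImInfty this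
  have h1 : Tendsto (fun w : ℍ => F (δ • (γ' • w))) atImInfty (𝓝 L) := hL.comp hup
  have h2 : Tendsto (fun w : ℍ => F (δ • (γ' • w)) - F (δ • w)) atImInfty (𝓝 (L - L)) :=
    h1.sub hL
  have h3 : (fun w : ℍ => F (δ • (γ' • w)) - F (δ • w)) =
      fun _ => per Γ f (Additive.ofMul γ) := by
    funext w
    rw [per_apply hf hF γ (δ • w), ← mul_smul, ← mul_smul, hγ']
    congr 3
    group
  rw [h3, sub_self] at h2
  exact tendsto_nhds_unique tendsto_const_nhds h2

theorem eq_zero_of_per [Γ.FiniteIndex] {f : ℍ → ℂ} (hf : S20.IsCF Γ 2 f) (h : per Γ f = 0) : f = 0 := by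
  obtain ⟨F, hF, -, hlim⟩ := exists_prim Γ hf
  have hc : ∀ z w : ℍ, F z = F w := by
    refine const_of_re_invariant Γ F (fun τ => (hF τ).differentiableAt) (fun γ hγ => ?_) hlim
    refine ⟨0, rfl, fun z => ?_⟩
    rw [← per_apply hf hF ⟨γ, hγ⟩ z, h]
    rfl
  funext τ
  have h1 : HasDerivAt (F ∘ ofComplex) (f τ) ↑τ := hF τ
  have h2 : (F ∘ ofComplex) = fun _ => F I := by
    funext z
    exact hc _ _
  rw [h2] at h1
  exact h1.unique (hasDerivAt_const _ _)

end Fermat.Agent.S48.M.Per
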